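/-
Item 68 (S37), piece E1 (helper3): the Hecke correspondence `T_ℓ` on `J₀(N)` is defined, i.e.
`HeckeInputsAlong ℚ̄ N ℓ` holds for all `N, ℓ ≥ 1`.

Wiring of item 74's generic function-field block:
* integrality / finiteness of the degeneracy maps `α = heckeAlphaBar = inclBar`,
  `β = heckeBetaBar = qpowBar` (helper29, `HeckeBar/ModDeg.lean`);
* `HasPrincipalDivisors` (helper2, `HeckeBar/Wiring.lean`);
* the norm formula GF1 and the fundamental identity GF2, generic in the map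
  (helper15, `HeckeBar/GenNorm.lean`).
-/
import Mathlib
import Fermat.Prelude.Def_ModularCurve_HeckeOperatorTotal
import Fermat.Agent.HeckeBar.ModDeg
import Fermat.Agent.HeckeBar.GenNorm
import Fermat.Agent.HeckeBar.Wiring

set_option autoImplicit false

open AlgebraicCurve ModularCurve
open Fermat.Agent.S24lib Fermat.Agent.HeckeBar

namespace Fermat.Agent.S37lib

theorem hinp_finiteAlong_alpha (N ℓ : ℕ) [NeZero N] [NeZero ℓ] :
    FiniteAlong Kbar (heckeAlphaBar Kbar N ℓ) :=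
  haveI : NeZero (N * ℓ) := ⟨Nat.mul_ne_zero (NeZero.ne N) (NeZero.ne ℓ)⟩
  finiteAlong_inclBar N (N * ℓ) (dvd_mul_right N ℓ)

theorem hinp_isIntegral_alpha (N ℓ : ℕ) [NeZero N] [NeZero ℓ] :
    HeckeAlphaBarIntegral Kbar N ℓ :=
  haveI : NeZero (N * ℓ) := ⟨Nat.mul_ne_zero (NeZero.ne N) (NeZero.ne ℓ)⟩
  isIntegral_inclBar N (N * ℓ) (dvd_mul_right N ℓ)

theorem hinp_finiteAlong_beta (N ℓ : ℕ) [NeZero N] [NeZero ℓ] :
    FiniteAlong Kbar (heckeBetaBar Kbar N ℓ) := by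
  have : NeZero (N * ℓ) := ⟨Nat.mul_ne_zero (NeZero.ne N) (NeZero.ne ℓ)⟩
  rw [heckeBetaBar_eq_qpowBar]
  exact finiteAlong_qpowBar N (N * ℓ) ℓ dvd_rfl

theorem hinp_isIntegral_beta (N ℓ : ℕ) [NeZero N] [NeZero ℓ] :
    HeckeBetaBarIntegral Kbar N ℓ := by
  have : NeZero (N * ℓ) := ⟨Nat.mul_ne_zero (NeZero.ne N) (NeZero.ne ℓ)⟩
  unfold HeckeBetaBarIntegral
  rw [heckeBetaBar_eq_qpowBar]
  exact isIntegral_qpowBar N (N * ℓ) ℓ dvd_rfl

/-- the norm formula (GF1) for `α` -/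
theorem hinp_normFormula_alpha (N ℓ : ℕ) [NeZero N] [NeZero ℓ] :
    NormFormulaAlong Kbar (heckeAlphaBar Kbar N ℓ) (hinp_finiteAlong_alpha N ℓ) := by
  have : NeZero (N * ℓ) := ⟨Nat.mul_ne_zero (NeZero.ne N) (NeZero.ne ℓ)⟩
  haveI := fin_ffData (N * ℓ)
  exact gen_normFormula _ (x' := jF (N * ℓ)) _

/-- the norm formula (GF1) for `β` -/
theorem hinp_normFormula_beta (N ℓ : ℕ) [NeZero N] [NeZero ℓ] :
    NormFormulaAlong Kbar (heckeBetaBar Kbar N ℓ) (hinp_finiteAlong_beta N ℓ) := by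
  have : NeZero (N * ℓ) := ⟨Nat.mul_ne_zero (NeZero.ne N) (NeZero.ne ℓ)⟩
  haveI := fin_ffData (N * ℓ)
  exact gen_normFormula _ (x' := jF (N * ℓ)) _

/-- **E1**: the inputs of the Hecke correspondence `T_ℓ = α_* β^*` hold over `ℚ̄`, so that
`heckeOperatorAlong ℚ̄ N ℓ` is the genuine Hecke operator. -/
theorem heckeInputsAlong_Qbar (N ℓ : ℕ) [NeZero N] [NeZero ℓ] :
    HeckeInputsAlong (AlgebraicClosure ℚ) N ℓ := by
  have : NeZero (N * ℓ) := ⟨Nat.mul_ne_zero (NeZero.ne N) (NeZero.ne ℓ)⟩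
  haveI : HasPrincipalDivisors Kbar (laurentBaseChange Kbar (modularFunctionFieldFull (N * ℓ))) :=
    wir_hasPrincipalDivisors (N * ℓ)
  exact heckeInputsAlong_intro (hinp_isIntegral_alpha N ℓ) (hinp_isIntegral_beta N ℓ)
    (fundamentalIdentityAlong_of_normFormulaAlong _ (hinp_isIntegral_beta N ℓ)
      (hinp_finiteAlong_beta N ℓ) (hinp_normFormula_beta N ℓ))
    (hinp_finiteAlong_alpha N ℓ) (hinp_normFormula_alpha N ℓ)

/-- the Hecke operator is the correspondence `α_* β^*` -/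
theorem heckeOperatorAlong_Qbar_eq (N ℓ : ℕ) [NeZero N] [NeZero ℓ] :
    haveI : NeZero (N * ℓ) := ⟨Nat.mul_ne_zero (NeZero.ne N) (NeZero.ne ℓ)⟩
    haveI : HasPrincipalDivisors Kbar
        (laurentBaseChange Kbar (modularFunctionFieldFull (N * ℓ))) :=
      wir_hasPrincipalDivisors (N * ℓ)
    heckeOperatorAlong Kbar N ℓ =
      heckePic0Bar (hinp_isIntegral_alpha N ℓ) (hinp_isIntegral_beta N ℓ)
        (fundamentalIdentityAlong_of_normFormulaAlong _ (hinp_isIntegral_beta N ℓ)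
          (hinp_finiteAlong_beta N ℓ) (hinp_normFormula_beta N ℓ))
        (hinp_finiteAlong_alpha N ℓ) (hinp_normFormula_alpha N ℓ) := by
  have : NeZero (N * ℓ) := ⟨Nat.mul_ne_zero (NeZero.ne N) (NeZero.ne ℓ)⟩
  haveI : HasPrincipalDivisors Kbar (laurentBaseChange Kbar (modularFunctionFieldFull (N * ℓ))) :=
    wir_hasPrincipalDivisors (N * ℓ)
  exact heckeOperatorAlong_eq _ _ _ _ _

end Fermat.Agent.S37lib
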