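import Mathlib
import Fermat.Prelude.Def_ModularCurve_HeckeModule
import Fermat.Prelude.Def_ModularCurve_ReductionModL

/-!
# S37 (item 68): shared definitions

* `RRInput K F`: the Riemann–Roch input of Lemma B (`BoundedHom.lean`).
* `twq u`: the substitution `q ↦ u q` on Laurent series.
* the statements `NormConjStatement`, `KronFStatement`, `GoodRedStatement`, `S18Statement`.
-/

set_option autoImplicit false

noncomputable section

namespace Fermat.Agent.S37lib

open ModularCurve AlgebraicCurve HahnSeries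

/-- The Riemann–Roch input of Lemma B. -/
structure RRInput (K F : Type*) [Field K] [Field F] [Algebra K F] : Prop where
  prin_deg : ∀ D ∈ Divisor.principal (K := K) (F := F), Divisor.degree D = 0
  deg_one : ∀ P : Place K F, P.deg = 1
  eff : ∃ g : ℕ, ∀ D : Divisor K F, (g : ℤ) ≤ Divisor.degree D →
      ∃ E : Divisor K F, 0 ≤ E ∧ E - D ∈ Divisor.principal (K := K) (F := F)

section twq

variable {R : Type*} [CommRing R]

/-- Underlying function of `twq`. -/
def twqFun (u : Rˣ) (x : LaurentSeries R) : LaurentSeries R :=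
  ⟨fun n => ((u ^ n : Rˣ) : R) * x.coeff n, x.isPWO_support.mono (fun n hn => by
    simp only [Function.mem_support, ne_eq] at hn
    intro h
    exact hn (by rw [h, mul_zero]))⟩

lemma twqFun_coeff (u : Rˣ) (x : LaurentSeries R) (n : ℤ) :
    (twqFun u x).coeff n = ((u ^ n : Rˣ) : R) * x.coeff n := rfl

lemma twqFun_mem_support (u : Rˣ) (x : LaurentSeries R) (n : ℤ) :
    n ∈ (twqFun u x).support ↔ n ∈ x.support := by
  rw [HahnSeries.mem_support, HahnSeries.mem_support, twqFun_coeff]
  constructor
  · intro h h0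
    exact h (by rw [h0, mul_zero])
  · intro h h0
    apply h
    have := congrArg (fun t => ((u ^ n : Rˣ)⁻¹ : Rˣ).val * t) h0
    simpa [← mul_assoc] using this

/-- `q ↦ u q` on Laurent series: the coefficient of `q^n` is multiplied by `u^n`. -/
def twq (u : Rˣ) : LaurentSeries R →+* LaurentSeries R where
  toFun := twqFun u
  map_one' := by
    ext n
    rw [twqFun_coeff, HahnSeries.coeff_one]
    by_cases hn : n = 0
    · subst hn; simp
    · simp [hn]
  map_zero' := by
    ext n; simp [twqFun_coeff]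
  map_add' x y := by
    ext n; simp [twqFun_coeff, mul_add]
  map_mul' x y := by
    ext n
    rw [twqFun_coeff, HahnSeries.coeff_mul, HahnSeries.coeff_mul, Finset.mul_sum]
    have hset : Finset.antidiagonal (twqFun u x).isPWO_support
        (twqFun u y).isPWO_support n =
        Finset.antidiagonal x.isPWO_support y.isPWO_support n := by
      ext ij
      rw [Finset.mem_antidiagonal, Finset.mem_antidiagonal, twqFun_mem_support,
        twqFun_mem_support]
    rw [hset]
    refine Finset.sum_congr rfl fun ij hij => ?_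
    have hsum : ij.1 + ij.2 = n := (Finset.mem_antidiagonal.1 hij).2.2
    rw [twqFun_coeff, twqFun_coeff, ← hsum, zpow_add, Units.val_mul]
    ring

@[simp] theorem twq_coeff (u : Rˣ) (x : LaurentSeries R) (n : ℤ) :
    (twq u x).coeff n = ((u ^ n : Rˣ) : R) * x.coeff n := rfl

theorem twq_one (x : LaurentSeries R) : twq (1 : Rˣ) x = x := by
  ext n; simp

theorem coeffMap_twq {S : Type*} [CommRing S] (f : R →+* S) (u : Rˣ) (x : LaurentSeries R) :
    coeffMap f (twq u x) = twq (Units.map (f : R →* S) u) (coeffMap f x) := by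
  ext n
  rw [coeffMap_coeff, twq_coeff, twq_coeff, coeffMap_coeff, map_mul]
  congr 1
  rw [← map_zpow]
  rfl

end twq

/-! ### Statements of the pieces and of the inputs -/

/-- E2a: the norm of `Y(q^ℓ)` from level `Nℓ` to level `N` is the product of its `ℓ + 1`
conjugates `Y(q^ℓ)`, `Y(ζ^b q^{1/ℓ})`; written in the variable `s = q^{1/ℓ}`. -/
def NormConjStatement (N ℓ : ℕ) [NeZero N] [NeZero ℓ] : Prop :=
  ∀ (ζ : (AlgebraicClosure ℚ)ˣ), IsPrimitiveRoot (ζ : AlgebraicClosure ℚ) ℓ →
    ∀ Y : modularFunctionFieldBar N,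
      haveI : NeZero (ℓ * ℓ) := ⟨Nat.mul_ne_zero (NeZero.ne ℓ) (NeZero.ne ℓ)⟩
      letI := algebraAlong (heckeAlphaBar (AlgebraicClosure ℚ) N ℓ)
      qExpand (AlgebraicClosure ℚ) ℓ
          ((Algebra.norm (modularFunctionFieldBar N)
            (heckeBetaBar (AlgebraicClosure ℚ) N ℓ Y) : modularFunctionFieldBar N) :
              LaurentSeries (AlgebraicClosure ℚ))
        = qExpand (AlgebraicClosure ℚ) (ℓ * ℓ) (Y : LaurentSeries (AlgebraicClosure ℚ))
          * ∏ b ∈ Finset.range ℓ, twq (ζ ^ b) (Y : LaurentSeries (AlgebraicClosure ℚ))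

/-- E2b (KRON-F): the norm of `Y(q^ℓ)` is integral if `Y` is, and its reduction is
`ȳ(q^ℓ) · τ(ȳ)`. -/
def KronFStatement (N ℓ : ℕ) [NeZero N] [NeZero ℓ] (A : ValuationSubring (AlgebraicClosure ℚ))
    [ExpChar (IsLocalRing.ResidueField A) ℓ] : Prop :=
  ∀ (y : LaurentSeries A)
    (hy : coeffMap A.subtype y ∈ modularFunctionFieldBar N),
    letI := algebraAlong (heckeAlphaBar (AlgebraicClosure ℚ) N ℓ)
    ∃ z : LaurentSeries A,
      coeffMap A.subtype z
        = ((Algebra.norm (modularFunctionFieldBar N)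
            (heckeBetaBar (AlgebraicClosure ℚ) N ℓ ⟨coeffMap A.subtype y, hy⟩) :
              modularFunctionFieldBar N) : LaurentSeries (AlgebraicClosure ℚ)) ∧
      coeffMap (IsLocalRing.residue A) z
        = qExpand (IsLocalRing.ResidueField A) ℓ (coeffMap (IsLocalRing.residue A) y)
          * coeffMap (frobenius (IsLocalRing.ResidueField A) ℓ)
              (coeffMap (IsLocalRing.residue A) y)

/-- Input from item 75 (good reduction). -/
def GoodRedStatement (N : ℕ) [NeZero N] : Prop :=
  ∀ ℓ : ℕ, ℓ.Prime → ¬ ℓ ∣ N → ∀ A : ValuationSubring (AlgebraicClosure ℚ), A.LiesOverPrime ℓ →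
    ReductionInputsModL A N

/-- Input from item 67: the frozen statement S18. -/
def S18Statement (N : ℕ) [NeZero N] : Prop :=
  ∀ {ℓ : ℕ} [Fact ℓ.Prime] (_ : ¬ ℓ ∣ N) (A : ValuationSubring (AlgebraicClosure ℚ))
    (_ : A.LiesOverPrime ℓ) (_ : ReductionInputsModL A N) (m : ℕ) (_ : ¬ ℓ ∣ m) (z : JZero N)
    (_ : m • z = 0) (_ : reductionModL A N z = 0), z = 0

end Fermat.Agent.S37lib
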