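/-
Item 68 (S37), piece E2a (helper29): the norm of `Y(q^ℓ)` from level `Nℓ` to level `N` is the
product of its `ℓ + 1` conjugates,
    `Norm_{F_{Nℓ}/F_N}(Y(q^ℓ)) (s^ℓ) = Y(s^{ℓ²}) · ∏_{b<ℓ} Y(ζ^b s)`        (`ℓ` prime, `ℓ ∤ N`).

Route: `h = (p q; N ℓ) ∈ Γ₀(N)`; the embeddings `E₁ = expansion at i∞` and
`twq (v^b) ∘ E_{h⁻¹}` (`b < ℓ`, `v^N = ζ`, `v^{Nℓ} = 1`) of `F_{Nℓ}` into `ℂ((t))`, `t = q^{1/(Nℓ)}`,
are `ℓ + 1 = [F_{Nℓ} : F_N]` pairwise distinct extensions of the expansion of `F_N`;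
`E_{h⁻¹}(Y(q^ℓ)) = Y(t^N)` because `ℓd·(h z) = δ·(d z/ℓ)` with `δ ∈ SL(2,ℤ)` (`d ∣ N`).
No sorry.
-/
import Mathlib
import Fermat.Agent.S24lib.Final
import Fermat.Agent.HeckeBar.ModDeg
import Fermat.Agent.S37lib.Defs
import Fermat.Agent.HeckeBar.GenBasic

set_option autoImplicit false

open scoped MatrixGroups
open UpperHalfPlane ModularCurve CongruenceSubgroup AlgebraicCurve
open Fermat.Agent.S24lib Fermat.Agent.HeckeBar

namespace Fermat.Agent.S37lib

/-! ### The matrix `h = (p q; N ℓ)` -/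

theorem nc_exists_h (N ℓ : ℕ) (hcop : Nat.Coprime ℓ N) :
    ∃ h : SL(2, ℤ), h 1 0 = (N : ℤ) ∧ h 1 1 = (ℓ : ℤ) := by
  have hb := Int.gcd_eq_gcd_ab (ℓ : ℤ) (N : ℤ)
  have hg : Int.gcd (ℓ : ℤ) (N : ℤ) = 1 := by
    rw [Int.gcd_natCast_natCast]; exact hcop
  rw [hg] at hb
  refine ⟨⟨!![Int.gcdA ℓ N, -Int.gcdB ℓ N; (N : ℤ), (ℓ : ℤ)], ?_⟩, rfl, rfl⟩
  rw [Matrix.det_fin_two_of]
  push_cast at hb
  linear_combination -hb

theorem nc_h_mem_Gamma0 (N : ℕ) (h : SL(2, ℤ)) (h10 : h 1 0 = (N : ℤ)) : h ∈ Gamma0 N := by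
  rw [Gamma0_mem, h10]
  simp

/-- `ℓ d · (h • z) = δ • (d z / ℓ)` for `h = (p q; N ℓ)`, `d ∣ N`. -/
theorem nc_nmulH_smul (N ℓ d : ℕ) [NeZero ℓ] [NeZero d] (hd : d ∣ N) (h : SL(2, ℤ))
    (h10 : h 1 0 = (N : ℤ)) (h11 : h 1 1 = (ℓ : ℤ)) :
    ∃ δ : SL(2, ℤ), ∀ z : ℍ,
      nmulH (ℓ * d) (h • z) =
        δ • affH d ℓ 0 (Nat.pos_of_ne_zero (NeZero.ne d)) (Nat.pos_of_ne_zero (NeZero.ne ℓ)) z := by
  obtain ⟨e, he⟩ := hd
  have hdet : h 0 0 * h 1 1 - h 0 1 * h 1 0 = 1 := by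
    have := h.det_coe
    rw [Matrix.det_fin_two] at this
    exact this
  rw [h10, h11] at hdet
  have hdet' : (ℓ : ℤ) * h 0 0 * 1 - h 0 1 * (d : ℤ) * (e : ℤ) = 1 := by
    rw [he] at hdet
    push_cast at hdet
    linear_combination hdet
  let δ : SL(2, ℤ) := ⟨!![(ℓ : ℤ) * h 0 0, h 0 1 * (d : ℤ); (e : ℤ), 1], by
    rw [Matrix.det_fin_two_of]; exact hdet'⟩
  refine ⟨δ, fun z => ?_⟩
  apply UpperHalfPlane.ext
  rw [coe_nmulH, UpperHalfPlane.coe_specialLinearGroup_apply,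
    UpperHalfPlane.coe_specialLinearGroup_apply, coe_affH]
  simp only [algebraMap_int_eq, eq_intCast, Complex.ofReal_intCast]
  have hδ00 : δ 0 0 = (ℓ : ℤ) * h 0 0 := rfl
  have hδ01 : δ 0 1 = h 0 1 * (d : ℤ) := rfl
  have hδ10 : δ 1 0 = (e : ℤ) := rfl
  have hδ11 : δ 1 1 = 1 := rfl
  rw [hδ00, hδ01, hδ10, hδ11, h10, h11]
  have hℓC : (ℓ : ℂ) ≠ 0 := by exact_mod_cast NeZero.ne ℓ
  have hden1 : ((N : ℤ) : ℂ) * (z : ℂ) + ((ℓ : ℤ) : ℂ) ≠ 0 :=
    dist_lin_ne_zero (N : ℤ) (ℓ : ℤ) (Or.inr (by exact_mod_cast NeZero.ne ℓ)) z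
  have hden2 : ((e : ℤ) : ℂ) * (((d : ℂ) * (z : ℂ) + ((0 : ℤ) : ℂ)) / (ℓ : ℂ)) + ((1 : ℤ) : ℂ) ≠ 0 := by
    have := dist_lin_ne_zero (e : ℤ) 1 (Or.inr one_ne_zero)
      (affH d ℓ 0 (Nat.pos_of_ne_zero (NeZero.ne d)) (Nat.pos_of_ne_zero (NeZero.ne ℓ)) z)
    simpa using this
  have hN : (N : ℂ) = (d : ℂ) * (e : ℂ) := by
    rw [he]; push_cast; ring
  rw [mul_div_assoc', div_eq_div_iff hden1 hden2]
  push_cast
  rw [hN]
  field_simp
  ring

/-- the function `z ↦ j(ℓ d · (h • z))` is `z ↦ j(d z / ℓ)` -/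
theorem nc_jH_conj (N ℓ d : ℕ) [NeZero ℓ] [NeZero d] (hd : d ∣ N) (h : SL(2, ℤ))
    (h10 : h 1 0 = (N : ℤ)) (h11 : h 1 1 = (ℓ : ℤ)) (z : ℍ) :
    jH (nmulH (ℓ * d) (h • z)) =
      jH (affH d ℓ 0 (Nat.pos_of_ne_zero (NeZero.ne d)) (Nat.pos_of_ne_zero (NeZero.ne ℓ)) z) := by
  obtain ⟨δ, hδ⟩ := nc_nmulH_smul N ℓ d hd h h10 h11
  rw [hδ z, jH_smul]


/-! ### The expansion of the conjugate -/

theorem nc_expInf_conj (N ℓ d : ℕ) [NeZero N] [NeZero ℓ] [NeZero d] (hd : d ∣ N) (h : SL(2, ℤ))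
    (h10 : h 1 0 = (N : ℤ)) (h11 : h 1 1 = (ℓ : ℤ)) (hdvd : ℓ * d ∣ N * ℓ) :
    expInf (N * ℓ) (h⁻¹ • jdWH (N * ℓ) (ℓ * d) hdvd)
      = qExpand ℂ N (qExpand ℂ d (coeffMap (algebraMap ℚ ℂ) jq)) := by
  have hd0 : 0 < d := Nat.pos_of_ne_zero (NeZero.ne d)
  have hN0 : 0 < N := Nat.pos_of_ne_zero (NeZero.ne N)
  have hℓ0 : 0 < ℓ := Nat.pos_of_ne_zero (NeZero.ne ℓ)
  have hsum : ∀ z : ℍ, HasSum (fun k : ℕ =>
      (if N * d ∣ k then ((jq.coeff (((k / (N * d) : ℕ) : ℤ) - 1) : ℚ) : ℂ) else 0) *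
        Function.Periodic.qParam ((N * ℓ : ℕ) : ℝ) (z : ℂ) ^ k)
      (Function.Periodic.qParam ((N * ℓ : ℕ) : ℝ) (z : ℂ) ^ (N * d) *
        ((h⁻¹ • jdWH (N * ℓ) (ℓ * d) hdvd : WH (N * ℓ)) : ℍ → ℂ) z) := by
    intro z
    refine hasSum_pow_reindex (N * d) (Nat.mul_pos hN0 hd0)
      (fun n : ℕ => ((jq.coeff ((n : ℤ) - 1) : ℚ) : ℂ)) _ _ ?_
    have h1 := hasSum_jH_affH (N * ℓ) d ℓ 0 hd0 hℓ0 (Nat.mul_pos hN0 hℓ0) (dvd_mul_left ℓ N) z
    rw [zpow_zero, one_mul, Nat.mul_div_cancel _ hℓ0, mul_comm d N] at h1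
    have hval : ((h⁻¹ • jdWH (N * ℓ) (ℓ * d) hdvd : WH (N * ℓ)) : ℍ → ℂ) z
        = jH (affH d ℓ 0 hd0 hℓ0 z) := by
      rw [wh_smul_apply, inv_inv]
      show jH (ofComplex (((ℓ * d : ℕ) : ℂ) * ((h • z : ℍ) : ℂ))) = _
      rw [jd_raw_eq, nc_jH_conj N ℓ d hd h h10 h11 z]
    rw [hval]
    exact h1
  rw [expInf_eq_of_hasSum (N * ℓ) _ (N * d) _ hsum, qExpand_qExpand]
  ext k
  rw [ei_bridge_coeff (N * d) (Nat.mul_pos hN0 hd0) k, ei_qExpand_coeff (N * d) k]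


/-! ### Generic Laurent-series lemmas -/

section Laurent

variable {R : Type*} [CommRing R]

theorem nc_twq_qExpand (u : Rˣ) (n : ℕ) [NeZero n] (x : LaurentSeries R) :
    twq u (qExpand R n x) = qExpand R n (twq (u ^ n) x) := by
  ext k
  by_cases hk : (n : ℤ) ∣ k
  · obtain ⟨m, rfl⟩ := hk
    rw [twq_coeff, qExpand_coeff_mul, qExpand_coeff_mul, twq_coeff, ← zpow_natCast, ← zpow_mul]
  · rw [twq_coeff, qExpand_coeff_of_not_dvd n _ hk, qExpand_coeff_of_not_dvd n _ hk, mul_zero]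

theorem nc_coeffMap_injective {S : Type*} [CommRing S] (f : R →+* S)
    (hf : Function.Injective f) : Function.Injective (coeffMap f) := by
  intro x y hxy
  ext k
  apply hf
  rw [← coeffMap_coeff, ← coeffMap_coeff, hxy]

end Laurent

theorem nc_inclL_injective (N : ℕ) [NeZero N] : Function.Injective (inclL N) := by
  intro x y hxy
  unfold inclL at hxy
  simp only [RingHom.comp_apply] at hxy
  exact nc_coeffMap_injective ιC ιC_injective (qExpand_injective N hxy)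

theorem nc_inclL_qExpand (N n : ℕ) [NeZero N] [NeZero n] (x : LaurentSeries Kbar) :
    inclL N (qExpand Kbar n x) = inclL (N * n) x := by
  unfold inclL
  simp only [RingHom.comp_apply]
  rw [coeffMap_qExpand, qExpand_qExpand]

theorem nc_inclL_twq (N : ℕ) [NeZero N] (u : Kbarˣ) (x : LaurentSeries Kbar) :
    inclL N (twq u x) = qExpand ℂ N (twq (Units.map (ιC : Kbar →* ℂ) u) (coeffMap ιC x)) := by
  unfold inclL
  simp only [RingHom.comp_apply]
  rw [coeffMap_twq]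

theorem nc_inclL_coeff_mul (N : ℕ) [NeZero N] (x : LaurentSeries Kbar) (k : ℤ) :
    (inclL N x).coeff ((N : ℤ) * k) = ιC (x.coeff k) := by
  unfold inclL
  simp only [RingHom.comp_apply]
  rw [qExpand_coeff_mul, coeffMap_coeff]

theorem nc_inclL_coeff_of_not_dvd (N : ℕ) [NeZero N] (x : LaurentSeries Kbar) {k : ℤ}
    (hk : ¬ (N : ℤ) ∣ k) : (inclL N x).coeff k = 0 := by
  unfold inclL
  simp only [RingHom.comp_apply]
  exact qExpand_coeff_of_not_dvd N _ hk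


/-! ### The embeddings of `F_{Nℓ}` -/

section Emb

variable (N ℓ : ℕ) [NeZero N] [NeZero ℓ]

/-- the expansion at `i∞` -/
theorem nc_embF_expInf (M : ℕ) [NeZero M] (f : FF M) :
    embF M (expInf M) (expInf_injective M) f = inclL M (f : LaurentSeries Kbar) := by
  unfold embF
  rw [RingHom.comp_apply, liftMF_ιF]

/-- `Γ₀(N)`-invariance of `j(d·)`, `d ∣ N`, at any level `M` -/
theorem nc_smul_jdWH (M d : ℕ) [NeZero M] [NeZero d] (hdM : d ∣ M) (hd : d ∣ N)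
    (γ : SL(2, ℤ)) (hγ : γ ∈ Gamma0 N) : γ • jdWH M d hdM = jdWH M d hdM := by
  ext z
  rw [wh_smul_apply]
  show jH (ofComplex ((d : ℂ) * ((γ⁻¹ • z : ℍ) : ℂ))) = jH (ofComplex ((d : ℂ) * (z : ℂ)))
  rw [jd_raw_eq, jd_raw_eq]
  exact jd_raw_smul_Gamma0 hd γ⁻¹ (inv_mem hγ) z

theorem nc_coe_algebraMap (M : ℕ) [NeZero M] (c : Kbar) :
    ((algebraMap Kbar (FF M) c : FF M) : LaurentSeries Kbar)
      = algebraMap Kbar (LaurentSeries Kbar) c := rfl

/-- the conjugate embedding restricted along `α` is the expansion at `i∞` -/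
theorem nc_embF_twist_alpha (g : SL(2, ℤ)) (hg : g ∈ Gamma0 N) (Y : FF N) :
    embF (N * ℓ) (twist (N * ℓ) (expInf (N * ℓ)) g) (twist_injective (N * ℓ)
        (expInf_injective (N * ℓ)) g) (heckeAlphaBar Kbar N ℓ Y)
      = inclL (N * ℓ) (Y : LaurentSeries Kbar) := by
  have key : (embF (N * ℓ) (twist (N * ℓ) (expInf (N * ℓ)) g) (twist_injective (N * ℓ)
        (expInf_injective (N * ℓ)) g)).comp (heckeAlphaBar Kbar N ℓ).toRingHom
      = (inclL (N * ℓ)).comp (algebraMap (FF N) (LaurentSeries Kbar)) := by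
    apply FF_ringHom_ext
    · intro c
      simp only [RingHom.comp_apply]
      show embF _ _ _ (heckeAlphaBar Kbar N ℓ (algebraMap Kbar (FF N) c)) = inclL (N * ℓ) _
      rw [AlgHom.commutes, embF_const, twist_apply, smul_whC, expInf_whC]
      exact (inclL_algebraMap (N * ℓ) c).symm
    · intro d _ hd
      simp only [RingHom.comp_apply]
      show embF _ _ _ (heckeAlphaBar Kbar N ℓ (jdF N d hd)) = inclL (N * ℓ) (jdF N d hd : _)
      rw [heckeAlphaBar_eq_inclBar, inclBar_jdF, embF_jdF, twist_apply,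
        nc_smul_jdWH N (N * ℓ) d _ hd g hg, expInf_jdWH, coe_jdF, inclL_coeffEmb,
        coeffMap_qExpand]
  exact congrArg (fun φ : FF N →+* LaurentSeries ℂ => φ Y) key

/-- the conjugate embedding restricted along `β` is `Y ↦ Y(q^{1/ℓ})` -/
theorem nc_embF_twist_beta (h : SL(2, ℤ)) (h10 : h 1 0 = (N : ℤ)) (h11 : h 1 1 = (ℓ : ℤ))
    (Y : FF N) :
    embF (N * ℓ) (twist (N * ℓ) (expInf (N * ℓ)) h⁻¹) (twist_injective (N * ℓ)
        (expInf_injective (N * ℓ)) h⁻¹) (heckeBetaBar Kbar N ℓ Y)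
      = inclL N (Y : LaurentSeries Kbar) := by
  have key : (embF (N * ℓ) (twist (N * ℓ) (expInf (N * ℓ)) h⁻¹) (twist_injective (N * ℓ)
        (expInf_injective (N * ℓ)) h⁻¹)).comp (heckeBetaBar Kbar N ℓ).toRingHom
      = (inclL N).comp (algebraMap (FF N) (LaurentSeries Kbar)) := by
    apply FF_ringHom_ext
    · intro c
      simp only [RingHom.comp_apply]
      show embF _ _ _ (heckeBetaBar Kbar N ℓ (algebraMap Kbar (FF N) c)) = inclL N _
      rw [AlgHom.commutes, embF_const, twist_apply, smul_whC, expInf_whC]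
      exact (inclL_algebraMap N c).symm
    · intro d _ hd
      simp only [RingHom.comp_apply]
      show embF _ _ _ (heckeBetaBar Kbar N ℓ (jdF N d hd)) = inclL N (jdF N d hd : _)
      rw [heckeBetaBar_eq_qpowBar, qpowBar_jdF, embF_jdF, twist_apply,
        nc_expInf_conj N ℓ d hd h h10 h11, coe_jdF, inclL_coeffEmb, coeffMap_qExpand]
  exact congrArg (fun φ : FF N →+* LaurentSeries ℂ => φ Y) key

end Emb

/-- The norm is the product over any family of `[B : A]` pairwise distinct embeddings extending a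
given embedding of the base field. -/
theorem nc_norm_eq_prod {A B L : Type*} [Field A] [Field B] [Field L] [Algebra A B]
    [FiniteDimensional A B] [Algebra.IsSeparable A B]
    (σ₀ : A →+* L) {ι : Type*} [Fintype ι] (τ : ι → (B →+* L))
    (hτ : ∀ i a, τ i (algebraMap A B a) = σ₀ a)
    (hinj : Function.Injective τ) (hcard : Fintype.card ι = Module.finrank A B) (x : B) :
    σ₀ (Algebra.norm A x) = ∏ i, τ i x := by
  classical
  let E := AlgebraicClosure L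
  letI : Algebra A E := ((algebraMap L E).comp σ₀).toAlgebra
  let τ' : ι → (B →ₐ[A] E) := fun i =>
    { (algebraMap L E).comp (τ i) with
      commutes' := fun a => by
        show algebraMap L E (τ i (algebraMap A B a)) = algebraMap L E (σ₀ a)
        rw [hτ] }
  have hτ'inj : Function.Injective τ' := by
    intro i j hij
    apply hinj
    refine RingHom.ext fun y => ?_
    have := congrArg (fun φ : B →ₐ[A] E => φ y) hij
    exact (algebraMap L E).injective this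
  have hcard' : Fintype.card ι = Fintype.card (B →ₐ[A] E) := by
    rw [hcard, AlgHom.card]
  have hbij : Function.Bijective τ' :=
    (Fintype.bijective_iff_injective_and_card τ').2 ⟨hτ'inj, hcard'⟩
  have h1 := Algebra.norm_eq_prod_embeddings A E x
  have h2 : ∏ σ : B →ₐ[A] E, σ x = ∏ i, τ' i x :=
    (Fintype.prod_bijective τ' hbij (fun i => τ' i x) (fun σ => σ x) (fun _ => rfl)).symm
  apply (algebraMap L E).injective
  rw [map_prod]
  exact h1.trans h2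


/-! ### The norm as the product of the conjugates -/

section Final

variable (N ℓ : ℕ) [NeZero N] [NeZero ℓ]

theorem nc_inclL_congr {A B : ℕ} [NeZero A] [NeZero B] (h : A = B) (x : LaurentSeries Kbar) :
    inclL A x = inclL B x := by
  subst h
  rfl

/-- the coefficient of `t^{-N}` of `Y(ζ^b q^{1/ℓ})` for `Y = j` -/
theorem nc_coeff_twq_jF (u : Kbarˣ) :
    (inclL N (twq u (jF N : LaurentSeries Kbar))).coeff (-(N : ℤ)) = ιC ((u⁻¹ : Kbarˣ) : Kbar) := by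
  have e : (-(N : ℤ)) = (N : ℤ) * (-1) := by ring
  rw [e, nc_inclL_coeff_mul, twq_coeff, coe_jF, coeffEmb, coeffMap_coeff, coeff_jq_neg_one,
    map_one, mul_one, zpow_neg_one]

theorem nc_coeff_qExpand_jF (hℓ : 1 < ℓ) :
    (inclL (N * ℓ) (qExpand Kbar ℓ (jF N : LaurentSeries Kbar))).coeff (-(N : ℤ)) = 0 := by
  apply nc_inclL_coeff_of_not_dvd
  rintro ⟨c, hc⟩
  have hN : (0 : ℤ) < N := by exact_mod_cast Nat.pos_of_ne_zero (NeZero.ne N)
  have hℓ' : (1 : ℤ) < ℓ := by exact_mod_cast hℓ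
  have h1 : (N : ℤ) * ((ℓ : ℤ) * c + 1) = 0 := by
    push_cast at hc
    linear_combination -hc
  rcases mul_eq_zero.1 h1 with h2 | h2
  · omega
  · have h3 : (ℓ : ℤ) ∣ 1 := ⟨-c, by linear_combination h2⟩
    have := Int.le_of_dvd one_pos h3
    omega

/-- **E2a.** The norm of `Y(q^ℓ)` from level `Nℓ` to level `N` is the product of the `ℓ + 1`
conjugates `Y(q^ℓ)`, `Y(ζ^b q^{1/ℓ})`. -/
theorem normConj (hℓ : ℓ.Prime) (hℓN : ¬ ℓ ∣ N) : NormConjStatement N ℓ := by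
  classical
  intro ζ hζ Y
  have hcop : Nat.Coprime ℓ N := (Nat.Prime.coprime_iff_not_dvd hℓ).2 hℓN
  obtain ⟨h, h10, h11⟩ := nc_exists_h N ℓ hcop
  have hg : h⁻¹ ∈ Gamma0 N := inv_mem (nc_h_mem_Gamma0 N h h10)
  obtain ⟨N', -, hN'⟩ := Nat.exists_mul_mod_eq_one_of_coprime hcop.symm hℓ.one_lt
  have hζℓ : ζ ^ ℓ = 1 := by
    apply Units.ext
    rw [Units.val_pow_eq_pow_val, hζ.pow_eq_one, Units.val_one]
  -- the root of unity `v` with `v ^ N = ζ`
  have hvN : (ζ ^ N') ^ N = ζ := by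
    rw [← pow_mul, mul_comm, ← Nat.mod_add_div (N * N') ℓ, hN', pow_add, pow_one, pow_mul, hζℓ,
      one_pow, mul_one]
  have hvM : (ζ ^ N') ^ (N * ℓ) = 1 := by
    rw [pow_mul, hvN, hζℓ]
  set v : ℂˣ := Units.map (ιC : Kbar →* ℂ) (ζ ^ N') with hv
  have hvN' : v ^ N = Units.map (ιC : Kbar →* ℂ) ζ := by
    rw [hv, ← map_pow, hvN]
  have hvM' : v ^ (N * ℓ) = 1 := by
    rw [hv, ← map_pow, hvM, map_one]
  -- the algebra structure
  letI := algebraAlong (heckeAlphaBar Kbar N ℓ)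
  haveI : Module.Finite (FF N) (FF (N * ℓ)) := finiteAlong_inclBar N (N * ℓ) (dvd_mul_right N ℓ)
  haveI : FFData Kbar (jF (N * ℓ)) := fin_ffData (N * ℓ)
  haveI : Algebra.IsSeparable (FF N) (FF (N * ℓ)) :=
    gen_separableAlong (heckeAlphaBar Kbar N ℓ) (transcendental_jF N) (x' := jF (N * ℓ))
  -- the embeddings
  let E1 : FF (N * ℓ) →+* LaurentSeries ℂ := embF (N * ℓ) (expInf (N * ℓ))
    (expInf_injective (N * ℓ))
  let Eg : FF (N * ℓ) →+* LaurentSeries ℂ := embF (N * ℓ) (twist (N * ℓ) (expInf (N * ℓ)) h⁻¹)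
    (twist_injective (N * ℓ) (expInf_injective (N * ℓ)) h⁻¹)
  let σ₀ : FF N →+* LaurentSeries ℂ :=
    (inclL (N * ℓ)).comp (algebraMap (FF N) (LaurentSeries Kbar))
  let τ : Option (Fin ℓ) → (FF (N * ℓ) →+* LaurentSeries ℂ) := fun i =>
    match i with
    | none => E1
    | some b => (twq (v ^ (b : ℕ))).comp Eg
  -- values on `β Y`
  have hτβ_none : ∀ Z : FF N, τ none (heckeBetaBar Kbar N ℓ Z)
      = inclL (N * ℓ) (qExpand Kbar ℓ (Z : LaurentSeries Kbar)) := by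
    intro Z
    show E1 _ = _
    rw [nc_embF_expInf, coe_heckeBetaBar]
  have hτβ_some : ∀ (b : Fin ℓ) (Z : FF N), τ (some b) (heckeBetaBar Kbar N ℓ Z)
      = inclL N (twq (ζ ^ (b : ℕ)) (Z : LaurentSeries Kbar)) := by
    intro b Z
    show twq (v ^ (b : ℕ)) (Eg _) = _
    rw [nc_embF_twist_beta N ℓ h h10 h11 Z, nc_inclL_twq, map_pow, ← hvN', ← pow_mul,
      mul_comm N (b : ℕ), pow_mul]
    unfold inclL
    simp only [RingHom.comp_apply]
    rw [nc_twq_qExpand]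
  -- restriction to `F_N`
  have hτ : ∀ i a, τ i (algebraMap (FF N) (FF (N * ℓ)) a) = σ₀ a := by
    intro i a
    cases i with
    | none =>
      show E1 (heckeAlphaBar Kbar N ℓ a) = inclL (N * ℓ) (a : LaurentSeries Kbar)
      rw [nc_embF_expInf, coe_heckeAlphaBar]
    | some b =>
      show twq (v ^ (b : ℕ)) (Eg (heckeAlphaBar Kbar N ℓ a)) = inclL (N * ℓ) (a : LaurentSeries Kbar)
      rw [nc_embF_twist_alpha N ℓ h⁻¹ hg a]
      unfold inclL
      simp only [RingHom.comp_apply]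
      rw [nc_twq_qExpand, ← pow_mul, mul_comm (b : ℕ), pow_mul, hvM', one_pow, twq_one]
  -- distinctness
  have hinj : Function.Injective τ := by
    let c : Option (Fin ℓ) → ℂ := fun i =>
      (τ i (heckeBetaBar Kbar N ℓ (jF N))).coeff (-(N : ℤ))
    have hc_none : c none = 0 := by
      show (τ none (heckeBetaBar Kbar N ℓ (jF N))).coeff (-(N : ℤ)) = 0
      rw [hτβ_none]
      exact nc_coeff_qExpand_jF N ℓ hℓ.one_lt
    have hc_some : ∀ b : Fin ℓ, c (some b) = ιC (((ζ ^ (b : ℕ))⁻¹ : Kbarˣ) : Kbar) := by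
      intro b
      show (τ (some b) (heckeBetaBar Kbar N ℓ (jF N))).coeff (-(N : ℤ)) = _
      rw [hτβ_some]
      exact nc_coeff_twq_jF N _
    intro i j hij
    have hcij : c i = c j := by
      show (τ i _).coeff _ = (τ j _).coeff _
      rw [hij]
    cases i with
    | none =>
      cases j with
      | none => rfl
      | some b =>
        exfalso
        rw [hc_none, hc_some] at hcij
        exact (Units.ne_zero _) (ιC_injective (hcij.symm.trans (map_zero ιC).symm))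
    | some a =>
      cases j with
      | none =>
        exfalso
        rw [hc_none, hc_some] at hcij
        exact (Units.ne_zero _) (ιC_injective (hcij.trans (map_zero ιC).symm))
      | some b =>
        rw [hc_some, hc_some] at hcij
        have h1 : (ζ ^ (a : ℕ))⁻¹ = (ζ ^ (b : ℕ))⁻¹ := Units.ext (ιC_injective hcij)
        have h2 : (ζ : Kbar) ^ (a : ℕ) = (ζ : Kbar) ^ (b : ℕ) := by
          have := congrArg (fun u : Kbarˣ => ((u⁻¹ : Kbarˣ) : Kbar)) h1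
          simpa using this
        have h3 := hζ.pow_inj a.2 b.2 h2
        exact congrArg some (Fin.ext h3)
  have hcard : Fintype.card (Option (Fin ℓ)) = Module.finrank (FF N) (FF (N * ℓ)) := by
    rw [Fintype.card_option, Fintype.card_fin]
    have h1 := finrankAlong_inclBar_prime N hℓ (N * ℓ) rfl
    rw [if_neg hℓN] at h1
    exact h1.symm
  have key := nc_norm_eq_prod σ₀ τ hτ hinj hcard (heckeBetaBar Kbar N ℓ Y)
  rw [Fintype.prod_option, hτβ_none] at key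
  simp only [hτβ_some] at key
  -- conclude by the injectivity of `inclL N`
  apply nc_inclL_injective N
  rw [nc_inclL_qExpand, map_mul, nc_inclL_qExpand, map_prod, Finset.prod_range]
  have e1 : inclL (N * (ℓ * ℓ)) (Y : LaurentSeries Kbar)
      = inclL (N * ℓ) (qExpand Kbar ℓ (Y : LaurentSeries Kbar)) := by
    rw [nc_inclL_qExpand]
    exact nc_inclL_congr (mul_assoc N ℓ ℓ).symm _
  rw [e1]
  exact key

end Final

end Fermat.Agent.S37lib
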