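import Fermat.Prelude.Def_ModularCurve_HeckeModule

/-!
# S37 (item 68), piece A0: assembly of `SpecializationExists` from reduction data

Given, at every prime `ℓ ∤ N p` and every place `A` over `ℓ`, an additive "reduction" map
`red : J →+ Jbar` and an additive "Frobenius" `Fr : Jbar →+ Jbar` such that
* (b) `red` kills the inertia action,
* (c) `red (σ x) = Fr (red x)` for Frobenius elements `σ`,
* (d) `red` is injective on `p`-power torsion,
* (e) `Fr (Fr (red y)) - Fr (red (T_ℓ y)) + ℓ • red y = 0`   (Eichler–Shimura on the image of `red`),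
we build the specialization `J' ⊆ Hom_ℤ(HeckeAlg, Jbar)` ("coinduced module"):
`J' = {φ | ∀ T, Fr (Fr (φ T)) - Fr (φ (T * X_ℓ)) + ℓ • φ T = 0}`, `(S • φ) T = φ (T * S)`,
`sp x = (T ↦ red (T • x))`, `F φ = Fr ∘ φ`.
-/

set_option autoImplicit false

noncomputable section

namespace Fermat.Agent.S37lib

open ModularCurve

section Coinduced

variable {Jbar : Type} [AddCommGroup Jbar]

/-- The coinduced specialization target: additive maps `HeckeAlg →+ Jbar` satisfying the
Eichler–Shimura relation for `Fr` and `X_ℓ`. -/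
def coindSub (Fr : Jbar →+ Jbar) (ℓ : Nat.Primes) : AddSubgroup (HeckeAlg →+ Jbar) where
  carrier := {φ | ∀ T : HeckeAlg, Fr (Fr (φ T)) - Fr (φ (T * heckeGen ℓ)) + (ℓ : ℕ) • φ T = 0}
  zero_mem' := by
    intro T
    simp
  add_mem' := by
    intro φ ψ hφ hψ T
    have h1 := hφ T
    have h2 := hψ T
    simp only [AddMonoidHom.add_apply, map_add, smul_add]
    calc Fr (Fr (φ T)) + Fr (Fr (ψ T)) - (Fr (φ (T * heckeGen ℓ)) + Fr (ψ (T * heckeGen ℓ)))
          + ((ℓ : ℕ) • φ T + (ℓ : ℕ) • ψ T)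
        = (Fr (Fr (φ T)) - Fr (φ (T * heckeGen ℓ)) + (ℓ : ℕ) • φ T)
          + (Fr (Fr (ψ T)) - Fr (ψ (T * heckeGen ℓ)) + (ℓ : ℕ) • ψ T) := by abel
      _ = 0 := by rw [h1, h2, add_zero]
  neg_mem' := by
    intro φ hφ T
    have h1 := hφ T
    simp only [AddMonoidHom.neg_apply, map_neg, smul_neg]
    calc -Fr (Fr (φ T)) - -Fr (φ (T * heckeGen ℓ)) + -((ℓ : ℕ) • φ T)
        = -(Fr (Fr (φ T)) - Fr (φ (T * heckeGen ℓ)) + (ℓ : ℕ) • φ T) := by abel
      _ = 0 := by rw [h1, neg_zero]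

/-- Right translation `φ ↦ (T ↦ φ (T * S))` on `HeckeAlg →+ Jbar`. -/
def coindTrans (S : HeckeAlg) : (HeckeAlg →+ Jbar) →+ (HeckeAlg →+ Jbar) where
  toFun φ := φ.comp (AddMonoidHom.mulRight S)
  map_zero' := AddMonoidHom.ext fun T => by simp
  map_add' φ ψ := AddMonoidHom.ext fun T => by simp

@[simp] lemma coindTrans_apply (S : HeckeAlg) (φ : HeckeAlg →+ Jbar) (T : HeckeAlg) :
    coindTrans S φ T = φ (T * S) := rfl

lemma coindTrans_mem (Fr : Jbar →+ Jbar) (ℓ : Nat.Primes) (S : HeckeAlg)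
    {φ : HeckeAlg →+ Jbar} (hφ : φ ∈ coindSub Fr ℓ) : coindTrans S φ ∈ coindSub Fr ℓ := by
  intro T
  have h := hφ (T * S)
  simp only [coindTrans_apply]
  rw [show T * heckeGen ℓ * S = T * S * heckeGen ℓ by ring]
  exact h

instance coindSMul (Fr : Jbar →+ Jbar) (ℓ : Nat.Primes) : SMul HeckeAlg (coindSub Fr ℓ) where
  smul S φ := ⟨coindTrans S φ.1, coindTrans_mem Fr ℓ S φ.2⟩

@[simp] lemma coind_smul_apply (Fr : Jbar →+ Jbar) (ℓ : Nat.Primes) (S : HeckeAlg)
    (φ : coindSub Fr ℓ) (T : HeckeAlg) :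
    ((S • φ : coindSub Fr ℓ) : HeckeAlg →+ Jbar) T = (φ : HeckeAlg →+ Jbar) (T * S) := rfl

instance coindModule (Fr : Jbar →+ Jbar) (ℓ : Nat.Primes) : Module HeckeAlg (coindSub Fr ℓ) where
  one_smul φ := by
    refine Subtype.ext (AddMonoidHom.ext fun T => ?_)
    simp
  mul_smul S₁ S₂ φ := by
    refine Subtype.ext (AddMonoidHom.ext fun T => ?_)
    simp only [coind_smul_apply]
    rw [show T * (S₁ * S₂) = T * S₁ * S₂ by ring]
  smul_zero S := by
    refine Subtype.ext (AddMonoidHom.ext fun T => ?_)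
    simp
  smul_add S φ ψ := by
    refine Subtype.ext (AddMonoidHom.ext fun T => ?_)
    simp
  add_smul S₁ S₂ φ := by
    refine Subtype.ext (AddMonoidHom.ext fun T => ?_)
    simp only [coind_smul_apply, AddSubgroup.coe_add, AddMonoidHom.add_apply]
    rw [mul_add, map_add]
  zero_smul φ := by
    refine Subtype.ext (AddMonoidHom.ext fun T => ?_)
    simp

/-- The Frobenius on the coinduced module: `φ ↦ Fr ∘ φ`. -/
def coindFrob (Fr : Jbar →+ Jbar) (ℓ : Nat.Primes) : coindSub Fr ℓ →+ coindSub Fr ℓ where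
  toFun φ := ⟨Fr.comp φ.1, by
    intro T
    have h := φ.2 T
    simp only [AddMonoidHom.comp_apply]
    have h2 : Fr (Fr (Fr ((φ : HeckeAlg →+ Jbar) T)))
        - Fr (Fr ((φ : HeckeAlg →+ Jbar) (T * heckeGen ℓ)))
        + (ℓ : ℕ) • Fr ((φ : HeckeAlg →+ Jbar) T)
        = Fr (Fr (Fr ((φ : HeckeAlg →+ Jbar) T)) - Fr ((φ : HeckeAlg →+ Jbar) (T * heckeGen ℓ))
          + (ℓ : ℕ) • (φ : HeckeAlg →+ Jbar) T) := by
      rw [map_add, map_sub, map_nsmul]
    rw [h2, h, map_zero]⟩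
  map_zero' := Subtype.ext (AddMonoidHom.ext fun T => by simp)
  map_add' φ ψ := Subtype.ext (AddMonoidHom.ext fun T => by simp)

@[simp] lemma coindFrob_apply (Fr : Jbar →+ Jbar) (ℓ : Nat.Primes) (φ : coindSub Fr ℓ)
    (T : HeckeAlg) :
    ((coindFrob Fr ℓ φ : coindSub Fr ℓ) : HeckeAlg →+ Jbar) T = Fr ((φ : HeckeAlg →+ Jbar) T) :=
  rfl

end Coinduced

section Abstract

variable {K L : Type*} [Field K] [Field L] [Algebra K L]
variable (p : ℕ) (J : Type*) [AddCommGroup J] [Module HeckeAlg J]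
  [DistribMulAction (L ≃ₐ[K] L) J] [SMulCommClass (L ≃ₐ[K] L) HeckeAlg J]

/-- The reduction data at one place `A` over `ℓ` needed by the assembly. -/
structure RedDatum (A : ValuationSubring L) (ℓ : Nat.Primes) (Jbar : Type) [AddCommGroup Jbar]
    (red : J →+ Jbar) (Fr : Jbar →+ Jbar) : Prop where
  inertia : ∀ σ ∈ A.inertiaSubgroupIn K, ∀ x : J, red (σ • x) = red x
  frobenius : ∀ σ : L ≃ₐ[K] L, A.IsFrobeniusAt σ ℓ → ∀ x : J, red (σ • x) = Fr (red x)
  injective_torsion : ∀ x : J, (∃ n : ℕ, p ^ n • x = 0) → red x = 0 → x = 0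
  eichlerShimura : ∀ y : J, Fr (Fr (red y)) - Fr (red (heckeGen ℓ • y)) + (ℓ : ℕ) • red y = 0

variable {p J}

/-- The specialization map `x ↦ (T ↦ red (T • x))` into the coinduced module. -/
def coindSp {A : ValuationSubring L} {ℓ : Nat.Primes} {Jbar : Type} [AddCommGroup Jbar]
    {red : J →+ Jbar} {Fr : Jbar →+ Jbar} (h : RedDatum (K := K) p J A ℓ Jbar red Fr) :
    J →+ coindSub Fr ℓ where
  toFun x := ⟨{ toFun := fun T => red (T • x)
                map_zero' := by simp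
                map_add' := fun T T' => by rw [add_smul, map_add] }, by
    intro T
    show Fr (Fr (red (T • x))) - Fr (red ((T * heckeGen ℓ) • x)) + (ℓ : ℕ) • red (T • x) = 0
    rw [mul_comm, mul_smul]
    exact h.eichlerShimura (T • x)⟩
  map_zero' := by
    refine Subtype.ext (AddMonoidHom.ext fun T => ?_)
    show red (T • (0 : J)) = 0
    rw [smul_zero, map_zero]
  map_add' x y := by
    refine Subtype.ext (AddMonoidHom.ext fun T => ?_)
    show red (T • (x + y)) = red (T • x) + red (T • y)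
    rw [smul_add, map_add]

@[simp] lemma coindSp_apply {A : ValuationSubring L} {ℓ : Nat.Primes} {Jbar : Type}
    [AddCommGroup Jbar] {red : J →+ Jbar} {Fr : Jbar →+ Jbar}
    (h : RedDatum (K := K) p J A ℓ Jbar red Fr) (x : J) (T : HeckeAlg) :
    ((coindSp h x : coindSub Fr ℓ) : HeckeAlg →+ Jbar) T = red (T • x) := rfl

theorem isSpecialization_coind {A : ValuationSubring L} {ℓ : Nat.Primes} {Jbar : Type}
    [AddCommGroup Jbar] {red : J →+ Jbar} {Fr : Jbar →+ Jbar}
    (h : RedDatum (K := K) p J A ℓ Jbar red Fr) :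
    IsSpecialization (K := K) p J (coindSub Fr ℓ) A ℓ (coindSp h) (coindFrob Fr ℓ) where
  hecke_comm T x := by
    refine Subtype.ext (AddMonoidHom.ext fun S => ?_)
    simp only [coindSp_apply, coind_smul_apply]
    rw [mul_smul]
  inertia_comm σ hσ x := by
    refine Subtype.ext (AddMonoidHom.ext fun S => ?_)
    simp only [coindSp_apply]
    rw [← smul_comm σ S x]
    exact h.inertia σ hσ (S • x)
  frobenius_comm σ hσ x := by
    refine Subtype.ext (AddMonoidHom.ext fun S => ?_)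
    simp only [coindSp_apply, coindFrob_apply]
    rw [← smul_comm σ S x]
    exact h.frobenius σ hσ (S • x)
  injective_torsion x hx hsp := by
    apply h.injective_torsion x hx
    have := congrArg (fun φ : coindSub Fr ℓ => (φ : HeckeAlg →+ Jbar) 1) hsp
    simpa using this

theorem specialFibreRelation_coind {Jbar : Type} [AddCommGroup Jbar] (Fr : Jbar →+ Jbar)
    (ℓ : ℕ) (hℓ : ℓ.Prime) :
    SpecialFibreRelation (coindSub Fr ⟨ℓ, hℓ⟩) ℓ hℓ (coindFrob Fr ⟨ℓ, hℓ⟩) := by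
  intro φ
  refine Subtype.ext (AddMonoidHom.ext fun T => ?_)
  have h := φ.2 T
  simpa using h

variable (p J)

/-- **A0 (abstract)**: `SpecializationExists` follows from reduction data at every place. -/
theorem specializationExists_of_redDatum (N : ℕ)
    (H : ∀ ℓ : ℕ, (hℓ : ℓ.Prime) → ¬ ℓ ∣ N * p →
      ∀ A : ValuationSubring L, A.LiesOverPrime ℓ →
        ∃ (Jbar : Type) (_ : AddCommGroup Jbar) (red : J →+ Jbar) (Fr : Jbar →+ Jbar),
          RedDatum (K := K) p J A ⟨ℓ, hℓ⟩ Jbar red Fr) :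
    SpecializationExists (K := K) (L := L) N p J := by
  intro ℓ hℓ hℓNp A hA
  obtain ⟨Jbar, _, red, Fr, h⟩ := H ℓ hℓ hℓNp A hA
  exact ⟨coindSub Fr ⟨ℓ, hℓ⟩, inferInstance, inferInstance, coindSp h, coindFrob Fr ⟨ℓ, hℓ⟩,
    isSpecialization_coind h, specialFibreRelation_coind Fr ℓ hℓ⟩

end Abstract

section Concrete

/-- **A0 (concrete)**: the frozen statement S37 follows from reduction data for `JZero N`,
where the Eichler–Shimura relation is stated with `heckeOperatorBar`. -/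
theorem specializationExists_JZero_of_redData (N p : ℕ) [NeZero N]
    (hcomm : HeckeOperatorsCommuteBar N)
    (H : ∀ ℓ : ℕ, (hℓ : ℓ.Prime) → ¬ ℓ ∣ N * p →
      ∀ A : ValuationSubring (AlgebraicClosure ℚ), A.LiesOverPrime ℓ →
        ∃ (Jbar : Type) (_ : AddCommGroup Jbar) (red : JZero N →+ Jbar) (Fr : Jbar →+ Jbar),
          (∀ σ ∈ A.inertiaSubgroupIn ℚ, ∀ x : JZero N, red (σ • x) = red x) ∧
          (∀ σ : AlgebraicClosure ℚ ≃ₐ[ℚ] AlgebraicClosure ℚ, A.IsFrobeniusAt σ ℓ →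
            ∀ x : JZero N, red (σ • x) = Fr (red x)) ∧
          (∀ x : JZero N, (∃ n : ℕ, p ^ n • x = 0) → red x = 0 → x = 0) ∧
          (∀ y : JZero N, Fr (Fr (red y)) - Fr (red (heckeOperatorBar N ⟨ℓ, hℓ⟩ y))
            + ℓ • red y = 0)) :
    letI := heckeModuleBar N
    ∀ (_ : SMulCommClass (AlgebraicClosure ℚ ≃ₐ[ℚ] AlgebraicClosure ℚ) HeckeAlg (JZero N)),
      SpecializationExists (K := ℚ) (L := AlgebraicClosure ℚ) N p (JZero N) := by
  letI := heckeModuleBar N
  intro _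
  refine specializationExists_of_redDatum (K := ℚ) (L := AlgebraicClosure ℚ) p (JZero N) N ?_
  intro ℓ hℓ hℓNp A hA
  obtain ⟨Jbar, _, red, Fr, hb, hc, hd, he⟩ := H ℓ hℓ hℓNp A hA
  refine ⟨Jbar, inferInstance, red, Fr, hb, hc, hd, ?_⟩
  intro y
  rw [heckeModuleBar_heckeGen_smul hcomm]
  exact he y

end Concrete

end Fermat.Agent.S37lib
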