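import Fermat.Agent.S37lib.FrobK
import Fermat.Agent.Kron.Core

/-!
# S37 (item 68), piece C, part 2: `q ↦ q^ℓ` on `F_k` in characteristic `ℓ`

`y(q^ℓ) = (τ⁻¹ y)^ℓ`, hence `F_k` is stable under `q ↦ q^ℓ` and
`ord_Q (y(q^ℓ)) = ℓ · ord_{τ Q} (y)`.
-/

set_option autoImplicit false

noncomputable section

namespace Fermat.Agent.S37lib

open ModularCurve AlgebraicCurve HahnSeries

variable (k : Type) [Field k] (ℓ : ℕ) [Fact ℓ.Prime] [CharP k ℓ] [PerfectRing k ℓ]
  (N : ℕ) [NeZero N]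

omit [PerfectRing k ℓ] in
/-- `x^ℓ = Σ a_n^ℓ q^{ℓ n}` in characteristic `ℓ`. -/
theorem coeffMap_frobenius_qExpand [NeZero ℓ] (x : LaurentSeries k) :
    coeffMap (frobenius k ℓ) (qExpand k ℓ x) = x ^ ℓ := by
  rw [coeffMap_qExpand, Fermat.Agent.Kron.kc_pow_char]

omit [NeZero N] in
theorem qExpand_mem_fullC [NeZero ℓ] {x : LaurentSeries k}
    (hx : x ∈ modularFunctionFieldFullC k N) :
    qExpand k ℓ x ∈ modularFunctionFieldFullC k N := by
  have h1 : coeffMap ((frobeniusEquiv k ℓ).symm : k →+* k) x ∈ modularFunctionFieldFullC k N :=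
    coeffMap_mem_fullC k N _ hx
  have h2 := Fermat.Agent.Kron.kc_pow_char ℓ (coeffMap ((frobeniusEquiv k ℓ).symm : k →+* k) x)
  have e : coeffMap (frobenius k ℓ) (coeffMap ((frobeniusEquiv k ℓ).symm : k →+* k) x) = x := by
    rw [coeffMap_coeffMap]
    have hid : (frobenius k ℓ).comp ((frobeniusEquiv k ℓ).symm : k →+* k) = RingHom.id k :=
      RingHom.ext fun a => frobenius_apply_frobeniusEquiv_symm k ℓ a
    rw [coeffMap_congr hid, coeffMap_id]
  rw [e] at h2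
  rw [← h2]
  exact pow_mem h1 ℓ

/-- `ord_Q (y(q^ℓ)) = ℓ · ord_{τ Q}(y)`. -/
theorem ord_qExpand [NeZero ℓ] (Q : Place k (modularFunctionFieldFullC k N))
    (x : modularFunctionFieldFullC k N) :
    Q.ord (⟨qExpand k ℓ (x : LaurentSeries k), qExpand_mem_fullC k ℓ N x.2⟩ :
        modularFunctionFieldFullC k N) = (ℓ : ℤ) * (frobK k ℓ N • Q).ord x := by
  have h1 : frobK k ℓ N • (⟨qExpand k ℓ (x : LaurentSeries k), qExpand_mem_fullC k ℓ N x.2⟩ :
      modularFunctionFieldFullC k N) = x ^ ℓ := by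
    apply Subtype.ext
    rw [coe_frobK_smul]
    exact coeffMap_frobenius_qExpand k ℓ (x : LaurentSeries k)
  have h2 := SemilinearAut.ord_smul (frobK k ℓ N) Q
    (⟨qExpand k ℓ (x : LaurentSeries k), qExpand_mem_fullC k ℓ N x.2⟩ :
      modularFunctionFieldFullC k N)
  rw [h1] at h2
  rw [← h2, ← zpow_natCast, Place.ord_zpow]

end Fermat.Agent.S37lib
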