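import Fermat.Agent.S37lib.GalRed
import Fermat.Agent.S37lib.FrobQ
import Fermat.Agent.HeckeBar.BaseChange

/-!
# S37 (item 68), piece E3: the Eichler–Shimura relation on `Pic0`

`Fr (Fr (red y)) - Fr (red (T_ℓ y)) + ℓ • red y = 0` for all `y ∈ JZero N`, where
`red = reductionModL A N` and `Fr = frobPic`.  Proof: on divisors of integral functions this is
Kronecker's congruence (`KronFStatement`) together with the norm formula for `α`; Lemma B extends
it to all divisors of degree `0`.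
-/

set_option autoImplicit false
set_option synthInstance.maxHeartbeats 400000

noncomputable section

namespace Fermat.Agent.S37lib

open ModularCurve AlgebraicCurve HahnSeries

section Generic

variable {K F : Type*} [Field K] [Field F] [Algebra K F] {X : Type*}

/-- An additive map which is nonnegative on places is nonnegative on effective divisors. -/
theorem hom_apply_nonneg (δ : Divisor K F →+ (X →₀ ℤ))
    (hδ : ∀ (P : Place K F) (Q : X), 0 ≤ δ (Finsupp.single P 1) Q)
    {E : Divisor K F} (hE : 0 ≤ E) (Q : X) : 0 ≤ δ E Q := by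
  rw [bh_apply_eq_sum]
  exact Finset.sum_nonneg fun P _ => mul_nonneg (hE P) (hδ P Q)

theorem hom_nonneg (δ : Divisor K F →+ (X →₀ ℤ))
    (hδ : ∀ (P : Place K F), 0 ≤ δ (Finsupp.single P 1))
    {E : Divisor K F} (hE : 0 ≤ E) : 0 ≤ δ E :=
  fun Q => hom_apply_nonneg δ (fun P Q => hδ P Q) hE Q

end Generic

section

variable {N : ℕ} [NeZero N] {ℓ : ℕ} [NeZero ℓ] {A : ValuationSubring (AlgebraicClosure ℚ)}

local notation "Kb" => AlgebraicClosure ℚ
local notation "kA" => IsLocalRing.ResidueField A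
local notation "FN" => modularFunctionFieldBar N
local notation "FNl" => modularFunctionFieldBar (N * ℓ)
local notation "FkN" => modularFunctionFieldFullC (IsLocalRing.ResidueField A) N

/-- The Hecke correspondence maps effective divisors to effective divisors. -/
theorem heckeDivBar_nonneg (hα : HeckeAlphaBarIntegral Kb N ℓ) (hβ : HeckeBetaBarIntegral Kb N ℓ)
    [HasPrincipalDivisors Kb FNl] {E : Divisor Kb FN} (hE : 0 ≤ E) :
    0 ≤ heckeDivBar hα hβ E := by
  classical
  have h1 : 0 ≤ Divisor.pullbackAlong (heckeBetaBar Kb N ℓ) hβ E := by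
    intro w
    rw [Divisor.pullbackAlong_apply]
    exact mul_nonneg (Int.natCast_nonneg _) (hE _)
  refine hom_nonneg (Divisor.pushforwardAlong (heckeAlphaBar Kb N ℓ) hα) (fun w => ?_) h1
  rw [Divisor.pushforwardAlong_single]
  intro v
  rw [Finsupp.single_apply]
  split_ifs
  · rw [one_mul]; exact Int.natCast_nonneg _
  · exact le_rfl

/-- The Hecke correspondence of a principal divisor is the divisor of the norm. -/
theorem heckeDivBar_apply_eq_ord (hα : HeckeAlphaBarIntegral Kb N ℓ)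
    (hβ : HeckeBetaBarIntegral Kb N ℓ) [HasPrincipalDivisors Kb FNl]
    (hfin : FiniteAlong Kb (heckeAlphaBar Kb N ℓ))
    (hN : NormFormulaAlong Kb (heckeAlphaBar Kb N ℓ) hfin)
    {E : Divisor Kb FN} {Y : FN} (hY : Y ≠ 0) (hE : ∀ P, E P = P.ord Y) (v : Place Kb FN) :
    heckeDivBar hα hβ E v
      = v.ord (Fermat.Agent.HeckeBar.normAlong (heckeAlphaBar Kb N ℓ) (heckeBetaBar Kb N ℓ Y)) := by
  have hβY : heckeBetaBar Kb N ℓ Y ≠ 0 := fun h0 =>
    hY ((map_eq_zero_iff _ (heckeBetaBar Kb N ℓ).toRingHom.injective).mp h0)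
  exact Fermat.Agent.HeckeBar.pushforwardAlong_apply_eq_ord (heckeAlphaBar Kb N ℓ) hα hfin hN hβY
    (fun w => Fermat.Agent.HeckeBar.pullbackAlong_apply_eq_ord (heckeBetaBar Kb N ℓ) hβ hE w) v

variable [Fact ℓ.Prime] [CharP (IsLocalRing.ResidueField A) ℓ]
  [PerfectRing (IsLocalRing.ResidueField A) ℓ]

omit [NeZero N] in
theorem coeffMap_subtype_injective :
    Function.Injective (coeffMap A.subtype : LaurentSeries A → LaurentSeries Kb) := by
  intro a b hab
  ext n
  have := congrArg (fun t : LaurentSeries Kb => t.coeff n) hab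
  simpa using this

/-- Function level: Eichler–Shimura on divisors of integral functions. -/
theorem es_of_integral
    {r : Place Kb FN → Place kA FkN} (hr : IsPlaceReductionModL A N r)
    (hα : HeckeAlphaBarIntegral Kb N ℓ) (hβ : HeckeBetaBarIntegral Kb N ℓ)
    [HasPrincipalDivisors Kb FNl]
    (hfin : FiniteAlong Kb (heckeAlphaBar Kb N ℓ))
    (hN : NormFormulaAlong Kb (heckeAlphaBar Kb N ℓ) hfin)
    (hK : KronFStatement N ℓ A)
    {E : Divisor Kb FN} (hE : E ∈ integralPrincipalDivisors A (IsLocalRing.residue A) N) :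
    frobK kA ℓ N • Finsupp.mapDomain r (heckeDivBar hα hβ E)
      = frobK kA ℓ N • frobK kA ℓ N • Finsupp.mapDomain r E + ℓ • Finsupp.mapDomain r E := by
  obtain ⟨y, hy, hyk, hne, hEy⟩ := hE
  have hY : (⟨coeffMap A.subtype y, hy⟩ : FN) ≠ 0 := by
    intro h0
    apply hne
    have h1 : coeffMap A.subtype y = 0 := congrArg Subtype.val h0
    have h2 : y = 0 := coeffMap_subtype_injective (by rw [h1, map_zero])
    rw [h2, map_zero]
  obtain ⟨z, hz, hzred⟩ := hK y hy
  have hzmem : coeffMap A.subtype z ∈ FN := by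
    rw [hz]; exact Subtype.property _
  have hφk : qExpand kA ℓ (coeffMap (IsLocalRing.residue A) y) ∈ FkN :=
    qExpand_mem_fullC kA ℓ N hyk
  have hτk : coeffMap (frobenius kA ℓ) (coeffMap (IsLocalRing.residue A) y) ∈ FkN :=
    coeffMap_frobenius_mem_fullC kA ℓ N hyk
  have hzk : coeffMap (IsLocalRing.residue A) z ∈ FkN := by
    rw [hzred]; exact mul_mem hφk hτk
  have hφne : (⟨_, hφk⟩ : FkN) ≠ 0 := by
    intro h0
    apply hne
    have h1 : qExpand kA ℓ (coeffMap (IsLocalRing.residue A) y) = 0 := congrArg Subtype.val h0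
    exact qExpand_injective ℓ (by rw [h1, map_zero])
  have hτne : frobK kA ℓ N • (⟨_, hyk⟩ : FkN) ≠ 0 := by
    intro h0
    have h1 := congrArg (fun t => (frobK kA ℓ N)⁻¹ • t) h0
    simp only [inv_smul_smul, smul_zero] at h1
    exact hne (congrArg Subtype.val h1)
  have h3 : (⟨coeffMap (IsLocalRing.residue A) z, hzk⟩ : FkN)
      = (⟨_, hφk⟩ : FkN) * (frobK kA ℓ N • (⟨_, hyk⟩ : FkN)) :=
    Subtype.ext hzred
  have hzne : coeffMap (IsLocalRing.residue A) z ≠ 0 := by
    intro h0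
    have : (⟨coeffMap (IsLocalRing.residue A) z, hzk⟩ : FkN) = 0 := Subtype.ext h0
    rw [h3] at this
    exact mul_ne_zero hφne hτne this
  have hTE : ∀ v, heckeDivBar hα hβ E v = v.ord (⟨coeffMap A.subtype z, hzmem⟩ : FN) := by
    intro v
    rw [heckeDivBar_apply_eq_ord hα hβ hfin hN hY hEy v]
    exact congrArg v.ord (Subtype.ext hz.symm)
  have h1 : ∀ Q, Finsupp.mapDomain r (heckeDivBar hα hβ E) Q
      = Q.ord (⟨coeffMap (IsLocalRing.residue A) z, hzk⟩ : FkN) :=
    hr.2 z hzmem hzk hzne _ hTE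
  have h2 : ∀ Q, Finsupp.mapDomain r E Q
      = Q.ord (⟨coeffMap (IsLocalRing.residue A) y, hyk⟩ : FkN) :=
    hr.2 y hy hyk hne E hEy
  have h4 : ∀ Q : Place kA FkN, Q.ord (⟨coeffMap (IsLocalRing.residue A) z, hzk⟩ : FkN)
      = (ℓ : ℤ) * (frobK kA ℓ N • Q).ord (⟨_, hyk⟩ : FkN)
        + Q.ord (frobK kA ℓ N • (⟨_, hyk⟩ : FkN)) := by
    intro Q
    rw [h3, Place.ord_mul _ hφne hτne]
    congr 1
    exact ord_qExpand kA ℓ N Q ⟨_, hyk⟩
  ext Q
  rw [SemilinearAut.divisor_smul_apply, h1, h4, smul_inv_smul, Finsupp.add_apply,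
    SemilinearAut.divisor_smul_apply, SemilinearAut.divisor_smul_apply, h2, Finsupp.smul_apply,
    h2, nsmul_eq_mul, add_comm]
  congr 1
  have h5 := SemilinearAut.ord_smul (frobK kA ℓ N)
    ((frobK kA ℓ N)⁻¹ • (frobK kA ℓ N)⁻¹ • Q) (⟨_, hyk⟩ : FkN)
  rw [smul_inv_smul] at h5
  exact h5

/-- Divisor level: Eichler–Shimura on divisors of degree `0`. -/
theorem es_of_degZero
    {r : Place Kb FN → Place kA FkN} (hr : IsPlaceReductionModL A N r)
    (hgen : PrincipalGeneratedByIntegral A (IsLocalRing.residue A) N)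
    (hRR : RRInput Kb FN)
    (hα : HeckeAlphaBarIntegral Kb N ℓ) (hβ : HeckeBetaBarIntegral Kb N ℓ)
    [HasPrincipalDivisors Kb FNl]
    (hFI : FundamentalIdentityAlong Kb (heckeBetaBar Kb N ℓ) hβ)
    (hfin : FiniteAlong Kb (heckeAlphaBar Kb N ℓ))
    (hN : NormFormulaAlong Kb (heckeAlphaBar Kb N ℓ) hfin)
    (hK : KronFStatement N ℓ A)
    {D : Divisor Kb FN} (hD : D ∈ Divisor.degZero (K := Kb) (F := FN)) :
    frobK kA ℓ N • Finsupp.mapDomain r (heckeDivBar hα hβ D)
      = frobK kA ℓ N • frobK kA ℓ N • Finsupp.mapDomain r D + ℓ • Finsupp.mapDomain r D := by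
  classical
  set Ge := frobK kA ℓ N with hGe
  set R : Divisor Kb FN →+ Divisor kA FkN := Finsupp.mapDomain.addMonoidHom r with hR
  set S : Divisor kA FkN →+ Divisor kA FkN := DistribSMul.toAddMonoidHom (Divisor kA FkN) Ge
    with hS
  set δ₁ : Divisor Kb FN →+ Divisor kA FkN := S.comp (R.comp (heckeDivBar hα hβ)) with hδ₁
  set δ₂ : Divisor Kb FN →+ Divisor kA FkN := (S.comp S).comp R + ℓ • R with hδ₂
  have h₁ : ∀ E, δ₁ E = Ge • Finsupp.mapDomain r (heckeDivBar hα hβ E) := fun E => rfl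
  have h₂ : ∀ E, δ₂ E = Ge • Ge • Finsupp.mapDomain r E + ℓ • Finsupp.mapDomain r E :=
    fun E => rfl
  have hRbound : ∀ (P : Place Kb FN) (Q : Place kA FkN), |R (Finsupp.single P 1) Q| ≤ ((1 : ℕ) : ℤ) := by
    intro P Q
    rw [hR, Finsupp.mapDomain.addMonoidHom_apply, Finsupp.mapDomain_single, Finsupp.single_apply]
    split_ifs <;> simp
  obtain ⟨gen, heff⟩ := hRR.eff
  have key := boundedHom_eq_of_mem_degZero δ₁ δ₂ ?_ hRR.prin_deg hRR.deg_one gen heff
    (finrankAlong Kb (heckeBetaBar Kb N ℓ)) (1 + ℓ) ?_ ?_ hD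
  · rw [h₁, h₂] at key
    exact key
  · intro E hE
    have hE' := hgen hE
    clear hE
    induction hE' using AddSubgroup.closure_induction with
    | mem E hE => rw [h₁, h₂]; exact es_of_integral hr hα hβ hfin hN hK hE
    | zero => rw [map_zero, map_zero]
    | add E E' _ _ hE hE' => rw [map_add, map_add, hE, hE']
    | neg E _ hE => rw [map_neg, map_neg, hE]
  · intro P Q
    rw [h₁, SemilinearAut.divisor_smul_apply]
    have hnn : 0 ≤ heckeDivBar hα hβ (Finsupp.single P 1) :=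
      heckeDivBar_nonneg hα hβ (by
        intro v
        rw [Finsupp.single_apply]
        split_ifs
        · exact zero_le_one
        · exact le_rfl)
    have hb := bh_abs_le_of_nonneg R hRR.deg_one 1 hRbound hnn (Ge⁻¹ • Q)
    have hdeg : Divisor.degree (heckeDivBar hα hβ (Finsupp.single P 1))
        = (finrankAlong Kb (heckeBetaBar Kb N ℓ) : ℤ) := by
      rw [heckeDivBar, Divisor.degree_correspondence _ _ hβ hα hFI, Divisor.degree_single,
        hRR.deg_one, Nat.cast_one, mul_one, mul_one]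
    rw [hdeg, Nat.cast_one, one_mul] at hb
    exact hb
  · intro P Q
    rw [h₂, Finsupp.mapDomain_single, SemilinearAut.smul_single, SemilinearAut.smul_single,
      Finsupp.add_apply, Finsupp.smul_apply, nsmul_eq_mul]
    have hs : ∀ (Q' Q'' : Place kA FkN), |(Finsupp.single Q' (1 : ℤ)) Q''| ≤ 1 := by
      intro Q' Q''
      rw [Finsupp.single_apply]
      split_ifs <;> simp
    have hℓ0 : (0 : ℤ) ≤ (ℓ : ℤ) := Int.natCast_nonneg ℓ
    calc |(Finsupp.single (Ge • Ge • r P) (1 : ℤ)) Q + (ℓ : ℤ) * (Finsupp.single (r P) (1 : ℤ)) Q|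
        ≤ |(Finsupp.single (Ge • Ge • r P) (1 : ℤ)) Q|
          + |(ℓ : ℤ) * (Finsupp.single (r P) (1 : ℤ)) Q| := abs_add_le _ _
      _ ≤ 1 + (ℓ : ℤ) * 1 := by
          rw [abs_mul, abs_of_nonneg hℓ0]
          exact add_le_add (hs _ _) (mul_le_mul_of_nonneg_left (hs _ _) hℓ0)
      _ = ((1 + ℓ : ℕ) : ℤ) := by push_cast; ring

/-- **Piece E3**: the Eichler–Shimura relation for the reduction map on `Pic0`. -/
theorem reductionModL_eichlerShimura
    (h : ReductionInputsModL A N) (hRR : RRInput Kb FN)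
    (hH : HeckeInputsAlong Kb N ℓ) (hK : KronFStatement N ℓ A) (y : JZero N) :
    frobPic kA ℓ N (frobPic kA ℓ N (reductionModL A N y))
      - frobPic kA ℓ N (reductionModL A N (heckeOperatorBar N ⟨ℓ, Fact.out⟩ y))
      + ℓ • reductionModL A N y = 0 := by
  obtain ⟨hα, hβ, hP, hfin, hFI, hN⟩ := hH
  have := hP
  obtain ⟨D, rfl⟩ := Pic0.mk_surjective y
  have hT : heckeOperatorBar N ⟨ℓ, Fact.out⟩ (Pic0.mk D)
      = Pic0.mk (Pic0.degZeroCorrespondence (heckeBetaBar Kb N ℓ) (heckeAlphaBar Kb N ℓ)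
          hβ hα hFI D) := by
    rw [heckeOperatorBar_apply]
    show heckeOperatorAlong Kb N ℓ (Pic0.mk D) = _
    rw [heckeOperatorAlong_eq hα hβ hFI hfin hN]
    rfl
  rw [hT, reductionModL_mk h, reductionModL_mk h, frobPic_apply, frobPic_apply, frobPic_apply,
    SemilinearAut.pic0_smul_mk, SemilinearAut.pic0_smul_mk, SemilinearAut.pic0_smul_mk]
  have hr := isPlaceReductionModL_placeReductionModL h
  have key := es_of_degZero hr h.choose_spec.2 hRR hα hβ hFI hfin hN hK D.2
  set X := SemilinearAut.degZeroSMulHom (frobK kA ℓ N)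
    (SemilinearAut.degZeroSMulHom (frobK kA ℓ N)
      (reductionDegZeroAlong (placeReductionModL h) hr.1 D)) with hX
  set Y := SemilinearAut.degZeroSMulHom (frobK kA ℓ N)
    (reductionDegZeroAlong (placeReductionModL h) hr.1
      (Pic0.degZeroCorrespondence (heckeBetaBar Kb N ℓ) (heckeAlphaBar Kb N ℓ) hβ hα hFI D))
    with hY
  set Z := reductionDegZeroAlong (placeReductionModL h) hr.1 D with hZ
  have hXYZ : Y = X + ℓ • Z := by
    apply Subtype.ext
    rw [AddSubgroup.coe_add, AddSubgroupClass.coe_nsmul]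
    exact key
  have : (Pic0.mk Y : JZeroC kA N) = Pic0.mk X + ℓ • Pic0.mk Z := by
    rw [hXYZ]
    rfl
  rw [this]
  abel

end

end Fermat.Agent.S37lib
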