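import Fermat.Agent.S37lib.Defs
import Fermat.Agent.Kron.Core

/-!
# S37 (item 68), piece E2b: Kronecker's congruence for integral functions (KRON-F)

From E2a (`NormConjStatement`): for `Y ∈ F_N` with `A`-integral `q`-expansion `y`, the norm
`Z = Norm_{F_{Nℓ}/αF_N}(βY)` satisfies `Z(s^ℓ) = Y(s^{ℓ²}) · ∏_{b<ℓ} Y(ζ^b s)`.  Since `ζ ∈ A`
(`A` is a valuation ring) and `ζ ≡ 1` modulo the maximal ideal (residue characteristic `ℓ`), the
right side is `A`-integral with reduction `ȳ(s^{ℓ²}) · ȳ(s)^ℓ = (ȳ(q^ℓ) · τ ȳ)(s^ℓ)`.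
-/

set_option autoImplicit false

noncomputable section

namespace Fermat.Agent.S37lib

open ModularCurve AlgebraicCurve HahnSeries

/-- `ExpChar k ℓ` with `ℓ` prime means `CharP k ℓ`. -/
theorem kf_charP_of_expChar (k : Type*) [Semiring k] {ℓ : ℕ} [h : ExpChar k ℓ] (hℓ : ℓ.Prime) :
    CharP k ℓ := by
  cases h with
  | zero => exact absurd hℓ Nat.not_prime_one
  | prime hprime => assumption

/-- A root of unity of a field lies in every valuation subring. -/
theorem kf_mem_of_pow_eq_one {K : Type*} [Field K] (A : ValuationSubring K) {ζ : K} {n : ℕ}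
    (hn : n ≠ 0) (hζ : ζ ^ n = 1) : ζ ∈ A := by
  rcases A.mem_or_inv_mem ζ with h | h
  · exact h
  · have hn' : n - 1 + 1 = n := Nat.sub_add_cancel (Nat.one_le_iff_ne_zero.mpr hn)
    have h0 : ζ * ζ ^ (n - 1) = 1 := by rw [← pow_succ', hn', hζ]
    have h2 : ζ ^ (n - 1) = ζ⁻¹ := eq_inv_of_mul_eq_one_right h0
    have h1 : ζ = (ζ⁻¹) ^ (n - 1) := by rw [inv_pow, h2, inv_inv]
    rw [h1]
    exact pow_mem h _

/-- In characteristic `ℓ` the only `ℓ`-th root of unity of a reduced ring is `1`. -/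
theorem kf_eq_one_of_pow_eq_one {k : Type*} [CommRing k] [IsReduced k] {ℓ : ℕ} [ExpChar k ℓ]
    {x : k} (hx : x ^ ℓ = 1) : x = 1 := by
  have h : (x - 1) ^ ℓ = 0 := by
    rw [sub_pow_expChar, hx, one_pow, sub_self]
  exact sub_eq_zero.mp (pow_eq_zero_iff (expChar_ne_zero k ℓ) |>.mp h)

/-- The algebraic core of KRON-F: if `Z(s^ℓ) = Y(s^{ℓ²}) · ∏_{b<ℓ} Y(ζ^b s)` over `K` with `Y` having
coefficients in the valuation ring `A` of residue characteristic `ℓ`, then `Z` has coefficients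
in `A` and reduces to `ȳ(q^ℓ) · τ ȳ`. -/
theorem kf_core {K : Type*} [Field K] (A : ValuationSubring K) (ℓ : ℕ) [NeZero ℓ]
    [ExpChar (IsLocalRing.ResidueField A) ℓ] (hℓ : ℓ.Prime)
    (ζ : Kˣ) (hζ : (ζ : K) ^ ℓ = 1) (y : LaurentSeries A) (Z : LaurentSeries K)
    (hZ : qExpand K ℓ Z = qExpand K (ℓ * ℓ) (coeffMap A.subtype y)
        * ∏ b ∈ Finset.range ℓ, twq (ζ ^ b) (coeffMap A.subtype y)) :
    ∃ z : LaurentSeries A, coeffMap A.subtype z = Z ∧
      coeffMap (IsLocalRing.residue A) z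
        = qExpand (IsLocalRing.ResidueField A) ℓ (coeffMap (IsLocalRing.residue A) y)
          * coeffMap (frobenius (IsLocalRing.ResidueField A) ℓ)
              (coeffMap (IsLocalRing.residue A) y) := by
  classical
  have : Fact ℓ.Prime := ⟨hℓ⟩
  have : CharP (IsLocalRing.ResidueField A) ℓ := kf_charP_of_expChar _ hℓ
  -- `ζ` as a unit of `A`
  have hmem : (ζ : K) ∈ A := kf_mem_of_pow_eq_one A (NeZero.ne ℓ) hζ
  have hζA : (⟨(ζ : K), hmem⟩ : A) ^ ℓ = 1 := Subtype.ext (by simpa using hζ)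
  let ζA : Aˣ := Units.ofPowEqOne (⟨(ζ : K), hmem⟩ : A) ℓ hζA (NeZero.ne ℓ)
  have hζA_map : Units.map (A.subtype : A →* K) ζA = ζ := Units.ext rfl
  have hζA_res : Units.map (IsLocalRing.residue A : A →* IsLocalRing.ResidueField A) ζA = 1 := by
    refine Units.ext ?_
    show IsLocalRing.residue A (⟨(ζ : K), hmem⟩ : A) = 1
    apply kf_eq_one_of_pow_eq_one (ℓ := ℓ)
    rw [← map_pow, hζA, map_one]
  -- the integral right-hand side
  set w : LaurentSeries A := qExpand A (ℓ * ℓ) y * ∏ b ∈ Finset.range ℓ, twq (ζA ^ b) y with hw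
  have hwK : coeffMap A.subtype w = qExpand K ℓ Z := by
    rw [hZ, hw, map_mul, map_prod, coeffMap_qExpand]
    congr 1
    refine Finset.prod_congr rfl fun b _ => ?_
    rw [coeffMap_twq, map_pow, hζA_map]
  have hw0 : ∀ n : ℤ, ¬ (ℓ : ℤ) ∣ n → w.coeff n = 0 := by
    intro n hn
    apply A.subtype_injective
    have := congrArg (fun t => t.coeff n) hwK
    simp only [coeffMap_coeff] at this
    rw [this, qExpand_coeff_of_not_dvd ℓ _ hn, map_zero]
  refine ⟨Kron.qContract ℓ w, ?_, ?_⟩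
  · apply qExpand_injective (R := K) ℓ
    rw [← coeffMap_qExpand, Kron.qExpand_qContract ℓ hw0, hwK]
  · apply qExpand_injective (R := IsLocalRing.ResidueField A) ℓ
    have hL : qExpand (IsLocalRing.ResidueField A) ℓ
        (coeffMap (IsLocalRing.residue A) (Kron.qContract ℓ w))
        = qExpand (IsLocalRing.ResidueField A) (ℓ * ℓ) (coeffMap (IsLocalRing.residue A) y)
          * (coeffMap (IsLocalRing.residue A) y) ^ ℓ := by
      rw [← coeffMap_qExpand, Kron.qExpand_qContract ℓ hw0, hw, map_mul, map_prod,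
        coeffMap_qExpand]
      congr 1
      rw [Finset.prod_congr rfl (fun b _ => by
        rw [coeffMap_twq, map_pow, hζA_res, one_pow, twq_one] :
          ∀ b ∈ Finset.range ℓ, coeffMap (IsLocalRing.residue A) (twq (ζA ^ b) y)
            = coeffMap (IsLocalRing.residue A) y), Finset.prod_const, Finset.card_range]
    rw [hL, map_mul, qExpand_qExpand, ← Kron.kc_pow_char]

set_option linter.unusedVariables false in
/-- **KRON-F** (piece E2b). -/
theorem kronF (N ℓ : ℕ) [NeZero N] [NeZero ℓ] (A : ValuationSubring (AlgebraicClosure ℚ))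
    [ExpChar (IsLocalRing.ResidueField A) ℓ] (hℓ : ℓ.Prime) (hA : A.LiesOverPrime ℓ)
    (hconj : NormConjStatement N ℓ) : KronFStatement N ℓ A := by
  intro y hy
  have : NeZero ((ℓ : ℕ) : ℚ) := ⟨by exact_mod_cast NeZero.ne ℓ⟩
  obtain ⟨ζ0, hζ0⟩ := HasEnoughRootsOfUnity.exists_primitiveRoot (AlgebraicClosure ℚ) ℓ
  have hunit : IsUnit ζ0 := hζ0.isUnit (NeZero.ne ℓ)
  obtain ⟨ζ, rfl⟩ := hunit
  exact kf_core A ℓ hℓ ζ hζ0.pow_eq_one y _ (hconj ζ hζ0 ⟨coeffMap A.subtype y, hy⟩)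

end Fermat.Agent.S37lib
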