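import Mathlib
import Fermat.Agent.S37lib.Assemble
import Fermat.Agent.S37lib.ESPic
import Fermat.Agent.S37lib.KronF
import Fermat.Agent.S37lib.NormConj
import Fermat.Agent.S37lib.HeckeInputs
import Fermat.Agent.S24lib.Final
import Fermat.Agent.RRlib.Inst
import Fermat.Agent.RRlib.Cor

/-!
# S37 (item 68), piece W: wiring

`specializationExists_of_goodRed_S18`: the frozen statement S37 for the level `N`, from the two
remaining inputs

* `GoodRedStatement N` (item 75): `ReductionInputsModL A N` for every place `A` of `ℚ̄` over a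
  prime `ℓ ∤ N`;
* `S18Statement N` (item 67): the frozen statement S18 at level `N`.

Everything else (Riemann–Roch effectivity, the Hecke correspondence, the norm congruence, the
Galois compatibility of the reduction map, the Eichler–Shimura relation on `Pic⁰`) is proved.
-/

set_option autoImplicit false

noncomputable section

namespace Fermat.Agent.S37lib

open ModularCurve AlgebraicCurve HahnSeries

/-! ### The residue field of a place of `ℚ̄` over `ℓ` -/

/-- the residue field of a place over `ℓ` has characteristic `ℓ` -/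
theorem w37_charP {K : Type*} [Field K] (A : ValuationSubring K) {ℓ : ℕ} (hℓ : ℓ.Prime)
    (hA : A.LiesOverPrime ℓ) : CharP (IsLocalRing.ResidueField A) ℓ := by
  rw [CharP.charP_iff_prime_eq_zero hℓ]
  have hmem : (ℓ : K) ∈ A := A.nonunits_le hA
  have h1 : ((⟨(ℓ : K), hmem⟩ : A)) ∈ IsLocalRing.maximalIdeal A := by
    rw [IsLocalRing.mem_maximalIdeal, mem_nonunits_iff]
    intro hu
    have hA' : (ℓ : K) ∈ A.nonunits := hA
    rw [ValuationSubring.mem_nonunits_iff_exists_mem_maximalIdeal] at hA'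
    obtain ⟨ha, hm⟩ := hA'
    rw [IsLocalRing.mem_maximalIdeal, mem_nonunits_iff] at hm
    exact hm hu
  have h2 : IsLocalRing.residue A (⟨(ℓ : K), hmem⟩ : A) = 0 :=
    (IsLocalRing.residue_eq_zero_iff _).2 h1
  have h3 : ((⟨(ℓ : K), hmem⟩ : A)) = ((ℓ : ℕ) : A) := by
    apply Subtype.ext
    simp
  rw [h3, map_natCast] at h2
  exact h2

/-- the residue field of a valuation ring of an algebraically closed field is perfect -/
theorem w37_perfectRing {K : Type*} [Field K] [IsAlgClosed K] (A : ValuationSubring K) (ℓ : ℕ)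
    [hℓ : Fact ℓ.Prime] [CharP (IsLocalRing.ResidueField A) ℓ] :
    PerfectRing (IsLocalRing.ResidueField A) ℓ := by
  refine PerfectRing.ofSurjective _ ℓ fun y => ?_
  obtain ⟨a, rfl⟩ := IsLocalRing.residue_surjective y
  obtain ⟨x, hx⟩ := IsAlgClosed.exists_pow_nat_eq (a : K) hℓ.out.pos
  have hxA : x ∈ A := by
    have hint : IsIntegral A x := by
      refine ⟨Polynomial.X ^ ℓ - Polynomial.C a, Polynomial.monic_X_pow_sub_C a hℓ.out.ne_zero, ?_⟩
      simp [hx]
    obtain ⟨y, rfl⟩ := IsIntegrallyClosed.isIntegral_iff.mp hint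
    exact y.2
  refine ⟨IsLocalRing.residue A ⟨x, hxA⟩, ?_⟩
  rw [frobenius_def, ← map_pow]
  congr 1
  exact Subtype.ext hx

/-! ### The Riemann–Roch input for `X₀(N)` over `ℚ̄` -/

/-- the Riemann–Roch input of Lemma B, for the function field of `X₀(N)` over `ℚ̄` -/
theorem w37_rrInput (N : ℕ) [NeZero N] :
    RRInput (AlgebraicClosure ℚ) (modularFunctionFieldBar N) := by
  haveI := Fermat.Agent.S24lib.fin_ffData N
  haveI : Fermat.Agent.RRlib.RRHyp (AlgebraicClosure ℚ) (modularFunctionFieldBar N) :=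
    Fermat.Agent.RRlib.rrHyp_of_ffData (Fermat.Agent.S24lib.jF N)
  refine ⟨?_, fun P => Fermat.Agent.RRlib.deg_eq_one P, ?_⟩
  · rintro D ⟨f, hf0, hf⟩
    have hD : D = Fermat.Agent.RRlib.divOf (K := AlgebraicClosure ℚ) f := by
      ext v
      rw [hf v, Fermat.Agent.RRlib.divOf_apply hf0]
    rw [hD]
    exact Fermat.Agent.RRlib.degree_divOf f
  · exact ⟨genusFF (AlgebraicClosure ℚ) (modularFunctionFieldBar N), fun D hD =>
      Fermat.Agent.RRlib.exists_effective_of_genus_le_degree hD⟩

/-! ### The assembly -/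

/-- S37 at level `N` from good reduction (item 75) and the frozen S18 (item 67). -/
theorem specializationExists_of_goodRed_S18 (N p : ℕ) [NeZero N]
    (hGR : GoodRedStatement N) (hS18 : S18Statement N)
    (hcomm : HeckeOperatorsCommuteBar N) :
    letI := heckeModuleBar N
    ∀ (_ : SMulCommClass (AlgebraicClosure ℚ ≃ₐ[ℚ] AlgebraicClosure ℚ) HeckeAlg (JZero N)),
      SpecializationExists (K := ℚ) (L := AlgebraicClosure ℚ) N p (JZero N) := by
  have hRR := w37_rrInput N
  refine specializationExists_JZero_of_redData N p hcomm ?_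
  intro ℓ hℓ hℓNp A hA
  have hℓN : ¬ ℓ ∣ N := fun h => hℓNp (Dvd.dvd.mul_right h p)
  have hℓp : ¬ ℓ ∣ p := fun h => hℓNp (Dvd.dvd.mul_left h N)
  haveI : NeZero ℓ := ⟨hℓ.ne_zero⟩
  haveI : Fact ℓ.Prime := ⟨hℓ⟩
  haveI : CharP (IsLocalRing.ResidueField A) ℓ := w37_charP A hℓ hA
  haveI : PerfectRing (IsLocalRing.ResidueField A) ℓ := w37_perfectRing A ℓ
  have h : ReductionInputsModL A N := hGR ℓ hℓ hℓN A hA
  refine ⟨JZeroC (IsLocalRing.ResidueField A) N, inferInstance, reductionModL A N,
    frobPic (IsLocalRing.ResidueField A) ℓ N, ?_, ?_, ?_, ?_⟩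
  · exact fun σ hσ x => reductionModL_inertia h hRR σ hσ x
  · exact fun σ hσ x => reductionModL_frobenius ℓ h hRR σ hσ x
  · rintro x ⟨n, hn⟩ hx
    exact hS18 hℓN A hA h (p ^ n) (fun hd => hℓp (hℓ.dvd_of_dvd_pow hd)) x hn hx
  · intro y
    exact reductionModL_eichlerShimura h hRR (heckeInputsAlong_Qbar N ℓ)
      (kronF N ℓ A hℓ hA (normConj N ℓ hℓ hℓN)) y

end Fermat.Agent.S37lib
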