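import Fermat.Agent.S37lib.Defs

/-!
# S37 (item 68), piece C: coefficientwise automorphisms of `F_k` and the Frobenius

`F_k = modularFunctionFieldFullC k N = k(j(q^d) : d ∣ N) ⊆ k((q))` is generated over `k` by series
with coefficients in the prime ring, so every ring automorphism `e` of `k` acts on `F_k`
coefficientwise: `coeffSemilinearC k N e : SemilinearAut k F_k`.  For `k` perfect of characteristic
`ℓ` the Frobenius `frobK k ℓ N` is the case `e = frobeniusEquiv k ℓ`.
-/

set_option autoImplicit false

noncomputable section

namespace Fermat.Agent.S37lib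

open ModularCurve AlgebraicCurve HahnSeries

section General

variable (k : Type) [Field k] (N : ℕ) [NeZero N]

omit [NeZero N] in
theorem mem_fullC_iff {x : LaurentSeries k} :
    x ∈ modularFunctionFieldFullC k N ↔
      x ∈ Subfield.closure
        (Set.range (algebraMap k (LaurentSeries k)) ∪ divisorExpansionsC k N) :=
  Iff.rfl

omit [NeZero N] in
/-- `F_k` is stable under every coefficientwise ring homomorphism. -/
theorem coeffMap_mem_fullC (f : k →+* k) {x : LaurentSeries k}
    (hx : x ∈ modularFunctionFieldFullC k N) :
    coeffMap f x ∈ modularFunctionFieldFullC k N := by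
  rw [mem_fullC_iff] at hx
  induction hx using Subfield.closure_induction with
  | mem y hy =>
      rcases hy with ⟨a, rfl⟩ | ⟨d, hd, hdN, rfl⟩
      · rw [coeffMap_algebraMap]
        exact (modularFunctionFieldFullC k N).algebraMap_mem _
      · have := hd
        rw [coeffMap_qExpand, coeffMap_jqModC]
        exact jqModCd_mem_full k N hdN
  | one => simp
  | add x y _ _ hx hy => simpa using add_mem hx hy
  | neg x _ hx => simpa using neg_mem hx
  | inv x _ hx => simpa using inv_mem hx
  | mul x y _ _ hx hy => simpa using mul_mem hx hy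

/-- The coefficientwise action of a ring automorphism of `k` on `F_k`. -/
def coeffRingAutC (e : k ≃+* k) :
    modularFunctionFieldFullC k N ≃+* modularFunctionFieldFullC k N where
  toFun x := ⟨coeffMap (e : k →+* k) (x : LaurentSeries k), coeffMap_mem_fullC k N _ x.2⟩
  invFun x := ⟨coeffMap (e.symm : k →+* k) (x : LaurentSeries k), coeffMap_mem_fullC k N _ x.2⟩
  left_inv x := Subtype.ext <| by
    show coeffMap (e.symm : k →+* k) (coeffMap (e : k →+* k) (x : LaurentSeries k))
      = (x : LaurentSeries k)
    rw [coeffMap_coeffMap,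
      coeffMap_congr (g := RingHom.id k) (RingHom.ext fun a => e.symm_apply_apply a)
        (x : LaurentSeries k),
      coeffMap_id]
  right_inv x := Subtype.ext <| by
    show coeffMap (e : k →+* k) (coeffMap (e.symm : k →+* k) (x : LaurentSeries k))
      = (x : LaurentSeries k)
    rw [coeffMap_coeffMap,
      coeffMap_congr (g := RingHom.id k) (RingHom.ext fun a => e.apply_symm_apply a)
        (x : LaurentSeries k),
      coeffMap_id]
  map_mul' x y :=
    Subtype.ext (map_mul (coeffMap (e : k →+* k)) (x : LaurentSeries k) (y : LaurentSeries k))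
  map_add' x y :=
    Subtype.ext (map_add (coeffMap (e : k →+* k)) (x : LaurentSeries k) (y : LaurentSeries k))

@[simp]
theorem coe_coeffRingAutC_apply (e : k ≃+* k) (x : modularFunctionFieldFullC k N) :
    (coeffRingAutC k N e x : LaurentSeries k) = coeffMap (e : k →+* k) (x : LaurentSeries k) :=
  rfl

theorem coeffRingAutC_algebraMap (e : k ≃+* k) (a : k) :
    coeffRingAutC k N e (algebraMap k (modularFunctionFieldFullC k N) a)
      = algebraMap k (modularFunctionFieldFullC k N) (e a) :=
  Subtype.ext (coeffMap_algebraMap (e : k →+* k) a)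

/-- The coefficientwise action of `Aut(k)` on `F_k` by semilinear automorphisms. -/
def coeffSemilinearC : (k ≃+* k) →* SemilinearAut k (modularFunctionFieldFullC k N) where
  toFun e := ⟨(coeffRingAutC k N e, e), fun a => coeffRingAutC_algebraMap k N e a⟩
  map_one' := by
    refine Subtype.ext (Prod.ext (RingEquiv.ext fun x => Subtype.ext ?_) rfl)
    show coeffMap ((1 : k ≃+* k) : k →+* k) (x : LaurentSeries k) = (x : LaurentSeries k)
    rw [show ((1 : k ≃+* k) : k →+* k) = RingHom.id k from RingHom.ext fun _ => rfl,
      coeffMap_id]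
  map_mul' σ τ := by
    refine Subtype.ext (Prod.ext (RingEquiv.ext fun x => Subtype.ext ?_) rfl)
    show coeffMap ((σ * τ : k ≃+* k) : k →+* k) (x : LaurentSeries k)
      = coeffMap (σ : k →+* k) (coeffMap (τ : k →+* k) (x : LaurentSeries k))
    rw [coeffMap_coeffMap]
    exact coeffMap_congr (RingHom.ext fun _ => rfl) _

@[simp]
theorem toRingAut_coeffSemilinearC (e : k ≃+* k) :
    SemilinearAut.toRingAut (coeffSemilinearC k N e) = coeffRingAutC k N e :=
  rfl

@[simp]
theorem baseAut_coeffSemilinearC (e : k ≃+* k) :
    SemilinearAut.baseAut (coeffSemilinearC k N e) = e :=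
  rfl

theorem coe_coeffSemilinearC_smul (e : k ≃+* k) (x : modularFunctionFieldFullC k N) :
    ((coeffSemilinearC k N e • x : modularFunctionFieldFullC k N) : LaurentSeries k)
      = coeffMap (e : k →+* k) (x : LaurentSeries k) :=
  rfl

/-- The divisor of `e(y)` is the translate of the divisor of `y`. -/
theorem ord_coeffSemilinearC (e : k ≃+* k) (Q : Place k (modularFunctionFieldFullC k N))
    (x : modularFunctionFieldFullC k N) :
    (coeffSemilinearC k N e • Q).ord (coeffSemilinearC k N e • x) = Q.ord x :=
  SemilinearAut.ord_smul _ Q x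

end General

section Frobenius

variable (k : Type) [Field k] (ℓ : ℕ) [ExpChar k ℓ] [PerfectRing k ℓ] (N : ℕ) [NeZero N]

/-- The coefficientwise Frobenius as a semilinear automorphism of `F_k`. -/
def frobK : SemilinearAut k (modularFunctionFieldFullC k N) :=
  coeffSemilinearC k N (frobeniusEquiv k ℓ)

theorem coe_frobK_smul (x : modularFunctionFieldFullC k N) :
    ((frobK k ℓ N • x : modularFunctionFieldFullC k N) : LaurentSeries k)
      = coeffMap (frobenius k ℓ) (x : LaurentSeries k) :=
  rfl

omit [PerfectRing k ℓ] in
theorem coeffMap_frobenius_mem_fullC {x : LaurentSeries k}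
    (hx : x ∈ modularFunctionFieldFullC k N) :
    coeffMap (frobenius k ℓ) x ∈ modularFunctionFieldFullC k N :=
  coeffMap_mem_fullC k N _ hx

/-- The Frobenius endomorphism of `Pic0(F_k)`. -/
def frobPic : JZeroC k N →+ JZeroC k N :=
  DistribSMul.toAddMonoidHom (JZeroC k N) (frobK k ℓ N)

theorem frobPic_apply (x : JZeroC k N) : frobPic k ℓ N x = frobK k ℓ N • x := rfl

end Frobenius

end Fermat.Agent.S37lib
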