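import Fermat.Agent.S37lib.BoundedHom
import Fermat.Agent.S37lib.FrobK

/-!
# S37 (item 68), piece D: Galois compatibility of the reduction map on `Pic0`

For `σ` in the decomposition group of `A`, with induced automorphism `e` of the residue field `k`,
`reductionModL A N (σ • x) = e • reductionModL A N x` for all `x ∈ JZero N`, where `e` acts on
`Pic0(F_k)` coefficientwise.  Proof: the two sides agree on divisors of integral functions (the
spec `IsPlaceReductionAlong` of the place reduction `r`), hence on principal divisors, hence on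
`Div⁰` by Lemma B.
-/

set_option autoImplicit false
set_option synthInstance.maxHeartbeats 400000

noncomputable section

namespace Fermat.Agent.S37lib

open ModularCurve AlgebraicCurve HahnSeries

section

variable (N : ℕ) [NeZero N] (A : ValuationSubring (AlgebraicClosure ℚ))

local notation "Kb" => AlgebraicClosure ℚ
local notation "kA" => IsLocalRing.ResidueField A
local notation "FN" => modularFunctionFieldBar N
local notation "FkN" => modularFunctionFieldFullC (IsLocalRing.ResidueField A) N

/-- The ring endomorphism of `A` induced by an element of the decomposition group. -/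
def decompHom (g : A.decompositionSubgroup ℚ) : A →+* A :=
  MulSemiringAction.toRingHom (A.decompositionSubgroup ℚ) A g

theorem coe_decompHom (g : A.decompositionSubgroup ℚ) (a : A) :
    ((decompHom A g a : A) : Kb) = (g : Kb ≃ₐ[ℚ] Kb) (a : Kb) := rfl

/-- The automorphism of the residue field induced by an element of the decomposition group. -/
def decompResAut (g : A.decompositionSubgroup ℚ) : kA ≃+* kA :=
  MulSemiringAction.toRingAut (A.decompositionSubgroup ℚ) kA g

theorem decompResAut_residue (g : A.decompositionSubgroup ℚ) (a : A) :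
    decompResAut A g (IsLocalRing.residue A a) = IsLocalRing.residue A (decompHom A g a) :=
  (IsLocalRing.ResidueField.residue_smul _ g a).symm

/-- Coefficientwise Galois action commutes with the inclusion `A((q)) ⊆ Kb((q))`. -/
theorem coeffMap_subtype_decompHom (g : A.decompositionSubgroup ℚ) (y : LaurentSeries A) :
    coeffMap A.subtype (coeffMap (decompHom A g) y)
      = coeffMap (((g : Kb ≃ₐ[ℚ] Kb) : Kb ≃ₐ[ℚ] Kb) : Kb →+* Kb) (coeffMap A.subtype y) := by
  rw [coeffMap_coeffMap, coeffMap_coeffMap]
  exact coeffMap_congr (RingHom.ext fun a => rfl) y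

/-- Coefficientwise Galois action commutes with reduction. -/
theorem coeffMap_residue_decompHom (g : A.decompositionSubgroup ℚ) (y : LaurentSeries A) :
    coeffMap (IsLocalRing.residue A) (coeffMap (decompHom A g) y)
      = coeffMap ((decompResAut A g : kA ≃+* kA) : kA →+* kA)
          (coeffMap (IsLocalRing.residue A) y) := by
  rw [coeffMap_coeffMap, coeffMap_coeffMap]
  exact coeffMap_congr (RingHom.ext fun a => (decompResAut_residue A g a).symm) y

variable {N A}

/-- The divisor of `g • f` is `g • div f`. -/
theorem smul_divisor_eq_ord {K F : Type*} [Field K] [Field F] [Algebra K F]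
    (g : SemilinearAut K F) {E : Divisor K F} {f : F} (hE : ∀ P, E P = P.ord f)
    (Q : Place K F) : (g • E) Q = Q.ord (g • f) := by
  rw [SemilinearAut.divisor_smul_apply, hE]
  have h := SemilinearAut.ord_smul g (g⁻¹ • Q) f
  rw [smul_inv_smul] at h
  exact h.symm

/-- Function level: on divisors of integral functions, `r_* ∘ σ = e ∘ r_*`. -/
theorem mapDomain_smul_of_integral
    {r : Place Kb FN → Place kA FkN} (hr : IsPlaceReductionModL A N r)
    (g : A.decompositionSubgroup ℚ)
    {E : Divisor Kb FN} (hE : E ∈ integralPrincipalDivisors A (IsLocalRing.residue A) N) :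
    Finsupp.mapDomain r
        (arithmeticGalois (modularFunctionFieldFull N) (g : Kb ≃ₐ[ℚ] Kb) • E)
      = coeffSemilinearC kA N (decompResAut A g) • Finsupp.mapDomain r E := by
  obtain ⟨y, hy, hyk, hne, hEy⟩ := hE
  -- the conjugate integral function
  set y' : LaurentSeries A := coeffMap (decompHom A g) y with hy'
  have hy'mem : coeffMap A.subtype y' ∈ FN := by
    rw [hy', coeffMap_subtype_decompHom]
    exact coeffMap_mem_laurentBaseChange _ hy
  have hy'k : coeffMap (IsLocalRing.residue A) y' ∈ FkN := by
    rw [hy', coeffMap_residue_decompHom]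
    exact coeffMap_mem_fullC kA N _ hyk
  have hy'ne : coeffMap (IsLocalRing.residue A) y' ≠ 0 := by
    rw [hy', coeffMap_residue_decompHom]
    intro h0
    apply hne
    have := congrArg (coeffMap (((decompResAut A g).symm : kA ≃+* kA) : kA →+* kA)) h0
    rw [coeffMap_coeffMap, map_zero,
      coeffMap_congr (g := RingHom.id kA)
        (RingHom.ext fun a => (decompResAut A g).symm_apply_apply a), coeffMap_id] at this
    exact this
  -- the divisor of the conjugate
  have hgE : ∀ P, (arithmeticGalois (modularFunctionFieldFull N) (g : Kb ≃ₐ[ℚ] Kb) • E) P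
      = P.ord (⟨coeffMap A.subtype y', hy'mem⟩ : FN) := by
    intro P
    rw [smul_divisor_eq_ord _ hEy P]
    refine congrArg P.ord (Subtype.ext ?_)
    rw [coe_arithmeticGalois_smul]
    exact (coeffMap_subtype_decompHom A g y).symm
  ext Q
  rw [hr.2 y' hy'mem hy'k hy'ne _ hgE Q,
    smul_divisor_eq_ord (coeffSemilinearC kA N (decompResAut A g))
      (hr.2 y hy hyk hne E hEy) Q]
  refine congrArg Q.ord (Subtype.ext ?_)
  rw [coe_coeffSemilinearC_smul]
  exact coeffMap_residue_decompHom A g y

/-- Divisor level: `r_* (σ D) = e (r_* D)` on divisors of degree `0`. -/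
theorem mapDomain_smul_of_degZero
    {r : Place Kb FN → Place kA FkN} (hr : IsPlaceReductionModL A N r)
    (hgen : PrincipalGeneratedByIntegral A (IsLocalRing.residue A) N)
    (hRR : RRInput Kb FN)
    (g : A.decompositionSubgroup ℚ)
    {D : Divisor Kb FN} (hD : D ∈ Divisor.degZero (K := Kb) (F := FN)) :
    Finsupp.mapDomain r
        (arithmeticGalois (modularFunctionFieldFull N) (g : Kb ≃ₐ[ℚ] Kb) • D)
      = coeffSemilinearC kA N (decompResAut A g) • Finsupp.mapDomain r D := by
  classical
  set G := arithmeticGalois (modularFunctionFieldFull N) (g : Kb ≃ₐ[ℚ] Kb) with hG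
  set Ge := coeffSemilinearC kA N (decompResAut A g) with hGe
  set δ₁ : Divisor Kb FN →+ Divisor kA FkN :=
    (Finsupp.mapDomain.addMonoidHom r).comp (DistribSMul.toAddMonoidHom (Divisor Kb FN) G)
    with hδ₁
  set δ₂ : Divisor Kb FN →+ Divisor kA FkN :=
    (DistribSMul.toAddMonoidHom (Divisor kA FkN) Ge).comp (Finsupp.mapDomain.addMonoidHom r)
    with hδ₂
  have h₁ : ∀ E, δ₁ E = Finsupp.mapDomain r (G • E) := fun E => rfl
  have h₂ : ∀ E, δ₂ E = Ge • Finsupp.mapDomain r E := fun E => rfl
  obtain ⟨gen, heff⟩ := hRR.eff
  have key := boundedHom_eq_of_mem_degZero δ₁ δ₂ ?_ hRR.prin_deg hRR.deg_one gen heff 1 1 ?_ ?_ hD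
  · rw [h₁, h₂] at key
    exact key
  · intro E hE
    have hE' := hgen hE
    clear hE
    induction hE' using AddSubgroup.closure_induction with
    | mem E hE => rw [h₁, h₂]; exact mapDomain_smul_of_integral hr g hE
    | zero => rw [map_zero, map_zero]
    | add E E' _ _ hE hE' => rw [map_add, map_add, hE, hE']
    | neg E _ hE => rw [map_neg, map_neg, hE]
  · intro P Q
    rw [h₁, SemilinearAut.smul_single, Finsupp.mapDomain_single, Finsupp.single_apply]
    split_ifs <;> simp
  · intro P Q
    rw [h₂, Finsupp.mapDomain_single, SemilinearAut.smul_single, Finsupp.single_apply]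
    split_ifs <;> simp

/-- **Piece D**: Galois compatibility of `reductionModL` for the decomposition group. -/
theorem reductionModL_decomp (h : ReductionInputsModL A N) (hRR : RRInput Kb FN)
    (g : A.decompositionSubgroup ℚ) (x : JZero N) :
    reductionModL A N ((g : Kb ≃ₐ[ℚ] Kb) • x)
      = coeffSemilinearC kA N (decompResAut A g) • reductionModL A N x := by
  obtain ⟨D, rfl⟩ := Pic0.mk_surjective x
  rw [galois_smul_pic0_def, SemilinearAut.pic0_smul_mk, reductionModL_mk h, reductionModL_mk h,
    SemilinearAut.pic0_smul_mk]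
  refine congrArg Pic0.mk (Subtype.ext ?_)
  rw [coe_reductionDegZeroAlong, SemilinearAut.coe_degZeroSMulHom,
    SemilinearAut.coe_degZeroSMulHom, coe_reductionDegZeroAlong]
  exact mapDomain_smul_of_degZero (isPlaceReductionModL_placeReductionModL h)
    h.choose_spec.2 hRR g D.2

/-- **Piece D (inertia)**: the reduction map kills the inertia action. -/
theorem reductionModL_inertia (h : ReductionInputsModL A N) (hRR : RRInput Kb FN)
    (σ : Kb ≃ₐ[ℚ] Kb) (hσ : σ ∈ A.inertiaSubgroupIn ℚ) (x : JZero N) :
    reductionModL A N (σ • x) = reductionModL A N x := by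
  obtain ⟨g, hg, rfl⟩ := hσ
  have h1 : decompResAut A g = 1 := hg
  have h2 := reductionModL_decomp h hRR g x
  rw [h1, map_one, one_smul] at h2
  exact h2

/-- **Piece D (Frobenius)**: the reduction map intertwines Frobenius elements with the
coefficientwise Frobenius. -/
theorem reductionModL_frobenius (ℓ : ℕ) [ExpChar kA ℓ] [PerfectRing kA ℓ]
    (h : ReductionInputsModL A N) (hRR : RRInput Kb FN)
    (σ : Kb ≃ₐ[ℚ] Kb) (hσ : A.IsFrobeniusAt σ ℓ) (x : JZero N) :
    reductionModL A N (σ • x) = frobPic kA ℓ N (reductionModL A N x) := by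
  obtain ⟨hσ', hfrob⟩ := hσ
  have h1 : decompResAut A ⟨σ, hσ'⟩ = frobeniusEquiv kA ℓ := by
    ext a
    rw [frobeniusEquiv_apply, frobenius_def]
    exact hfrob a
  have h2 := reductionModL_decomp h hRR ⟨σ, hσ'⟩ x
  rw [h1] at h2
  exact h2

end

end Fermat.Agent.S37lib
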