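import Fermat.Prelude.Def_AlgebraicCurve_DivisorClassGroup
import Mathlib.Algebra.Order.BigOperators.Group.Finset
import Mathlib.Tactic

/-!
# S37 (item 68), piece B: the bounded-homomorphism lemma

An additive map `δ : Div(F) → (X →₀ ℤ)` which kills principal divisors and is bounded on places
kills all divisors of degree `0`, as soon as every divisor of degree `≥ g` is linearly equivalent
to an effective one (Riemann's inequality) and all places have degree one.

This replaces the divisibility of `Pic0` in the uniqueness arguments of the Prelude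
(`IsPlaceReductionAlong.eq_or_const_of_agree`).
-/

set_option autoImplicit false

noncomputable section

namespace Fermat.Agent.S37lib

open AlgebraicCurve

variable {K F : Type*} [Field K] [Field F] [Algebra K F] {X : Type*}

/-- The value of an additive map on a divisor, as a sum over its support. -/
theorem bh_apply_eq_sum (δ : Divisor K F →+ (X →₀ ℤ)) (E : Divisor K F) (Q : X) :
    δ E Q = ∑ P ∈ E.support, E P * δ (Finsupp.single P 1) Q := by
  classical
  conv_lhs => rw [← Finsupp.sum_single E]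
  rw [Finsupp.sum, map_sum, Finsupp.finsetSum_apply]
  refine Finset.sum_congr rfl fun P _ => ?_
  have h : (Finsupp.single P (E P) : Divisor K F) = E P • Finsupp.single P (1 : ℤ) := by
    rw [Finsupp.smul_single, smul_eq_mul, mul_one]
  rw [h, map_zsmul, Finsupp.smul_apply, smul_eq_mul]

/-- The degree of a divisor when all places have degree one. -/
theorem bh_degree_eq_sum (hdeg : ∀ P : Place K F, P.deg = 1) (E : Divisor K F) :
    Divisor.degree E = ∑ P ∈ E.support, E P := by
  classical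
  conv_lhs => rw [← Finsupp.sum_single E]
  rw [Finsupp.sum, map_sum]
  refine Finset.sum_congr rfl fun P _ => ?_
  rw [Divisor.degree_single, hdeg, Nat.cast_one, mul_one]

/-- A bounded additive map is bounded by `B * deg E` on effective divisors. -/
theorem bh_abs_le_of_nonneg (δ : Divisor K F →+ (X →₀ ℤ))
    (hdeg : ∀ P : Place K F, P.deg = 1)
    (B : ℕ) (hB : ∀ (P : Place K F) (Q : X), |δ (Finsupp.single P 1) Q| ≤ B)
    {E : Divisor K F} (hE : 0 ≤ E) (Q : X) :
    |δ E Q| ≤ B * Divisor.degree E := by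
  classical
  rw [bh_apply_eq_sum δ E Q, bh_degree_eq_sum hdeg E, Finset.mul_sum]
  refine (Finset.abs_sum_le_sum_abs _ _).trans (Finset.sum_le_sum fun P _ => ?_)
  have hEP : 0 ≤ E P := hE P
  rw [abs_mul, abs_of_nonneg hEP, mul_comm]
  exact mul_le_mul_of_nonneg_right (hB P Q) hEP

/-- **Lemma B (bounded homomorphisms)**. -/
theorem boundedHom_eq_zero_of_mem_degZero
    (δ : Divisor K F →+ (X →₀ ℤ))
    (hprin : ∀ D ∈ Divisor.principal (K := K) (F := F), δ D = 0)
    (hprin0 : ∀ D ∈ Divisor.principal (K := K) (F := F), Divisor.degree D = 0)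
    (hdeg : ∀ P : Place K F, P.deg = 1)
    (g : ℕ)
    (heff : ∀ D : Divisor K F, (g : ℤ) ≤ Divisor.degree D →
      ∃ E : Divisor K F, 0 ≤ E ∧ E - D ∈ Divisor.principal (K := K) (F := F))
    (B : ℕ) (hB : ∀ (P : Place K F) (Q : X), |δ (Finsupp.single P 1) Q| ≤ B)
    {D : Divisor K F} (hD : D ∈ Divisor.degZero (K := K) (F := F)) : δ D = 0 := by
  classical
  rcases isEmpty_or_nonempty (Place K F) with hemp | ⟨⟨P₀⟩⟩
  · have : D = 0 := Finsupp.ext fun P => (hemp.false P).elim
    rw [this, map_zero]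
  ext Q
  rw [Finsupp.zero_apply]
  by_contra hc
  have hc1 : (1 : ℤ) ≤ |δ D Q| := Int.one_le_abs hc
  set n : ℕ := 2 * g * B + 1 with hn
  set Dn : Divisor K F := (n : ℤ) • D + (g : ℤ) • Finsupp.single P₀ (1 : ℤ) with hDn
  have hdegDn : Divisor.degree Dn = g := by
    rw [hDn, map_add, map_zsmul, map_zsmul, Divisor.mem_degZero.mp hD, Divisor.degree_single,
      hdeg, smul_zero, zero_add, Nat.cast_one, mul_one, smul_eq_mul, mul_one]
  obtain ⟨E, hE0, hEprin⟩ := heff Dn (le_of_eq hdegDn.symm)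
  have hdegE : Divisor.degree E = g := by
    have h := hprin0 _ hEprin
    rw [map_sub, hdegDn, sub_eq_zero] at h
    exact h
  have hδE : δ E = δ Dn := by
    have h := hprin _ hEprin
    rw [map_sub, sub_eq_zero] at h
    exact h
  have hbound := bh_abs_le_of_nonneg δ hdeg B hB hE0 Q
  rw [hδE, hdegE, hDn, map_add, map_zsmul, map_zsmul, Finsupp.add_apply, Finsupp.smul_apply,
    Finsupp.smul_apply, smul_eq_mul, smul_eq_mul] at hbound
  have hP₀ := hB P₀ Q
  -- |n * c + g * d| ≤ B * g, |d| ≤ B, so n * |c| ≤ 2 g B < n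
  have h1 : |(n : ℤ) * δ D Q| ≤ (B : ℤ) * g + g * B := by
    have e : (n : ℤ) * δ D Q
        = ((n : ℤ) * δ D Q + (g : ℤ) * δ (Finsupp.single P₀ 1) Q)
          - (g : ℤ) * δ (Finsupp.single P₀ 1) Q := by ring
    rw [e]
    refine (abs_sub _ _).trans (add_le_add hbound ?_)
    rw [abs_mul, abs_of_nonneg (Int.natCast_nonneg g)]
    exact mul_le_mul_of_nonneg_left hP₀ (Int.natCast_nonneg g)
  rw [abs_mul, abs_of_nonneg (Int.natCast_nonneg n)] at h1
  have h2 : (n : ℤ) ≤ (n : ℤ) * |δ D Q| := by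
    calc (n : ℤ) = (n : ℤ) * 1 := (mul_one _).symm
      _ ≤ (n : ℤ) * |δ D Q| := mul_le_mul_of_nonneg_left hc1 (Int.natCast_nonneg n)
  have h3 : (n : ℤ) = 2 * g * B + 1 := by rw [hn]; push_cast; ring
  nlinarith [h1, h2, h3]

/-- Variant of Lemma B for two additive maps agreeing on principal divisors. -/
theorem boundedHom_eq_of_mem_degZero
    (δ₁ δ₂ : Divisor K F →+ (X →₀ ℤ))
    (hprin : ∀ D ∈ Divisor.principal (K := K) (F := F), δ₁ D = δ₂ D)
    (hprin0 : ∀ D ∈ Divisor.principal (K := K) (F := F), Divisor.degree D = 0)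
    (hdeg : ∀ P : Place K F, P.deg = 1)
    (g : ℕ)
    (heff : ∀ D : Divisor K F, (g : ℤ) ≤ Divisor.degree D →
      ∃ E : Divisor K F, 0 ≤ E ∧ E - D ∈ Divisor.principal (K := K) (F := F))
    (B₁ B₂ : ℕ) (hB₁ : ∀ (P : Place K F) (Q : X), |δ₁ (Finsupp.single P 1) Q| ≤ B₁)
    (hB₂ : ∀ (P : Place K F) (Q : X), |δ₂ (Finsupp.single P 1) Q| ≤ B₂)
    {D : Divisor K F} (hD : D ∈ Divisor.degZero (K := K) (F := F)) : δ₁ D = δ₂ D := by
  have h := boundedHom_eq_zero_of_mem_degZero (δ₁ - δ₂)
    (fun D hD => by rw [AddMonoidHom.sub_apply, hprin D hD, sub_self]) hprin0 hdeg g heff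
    (B₁ + B₂) (fun P Q => by
      rw [AddMonoidHom.sub_apply, Finsupp.sub_apply]
      refine (abs_sub _ _).trans ?_
      push_cast
      exact add_le_add (hB₁ P Q) (hB₂ P Q)) hD
  rw [AddMonoidHom.sub_apply, sub_eq_zero] at h
  exact h

end Fermat.Agent.S37lib
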